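import Fermat.Agent.OrdinaryCount.Forms
import Fermat.Agent.OrdinaryReduced.Count

/-!
# The Hecke algebra of level one over `ℚ_p`

It is reduced, dual to the space of forms by the first coefficient, and the space is free of rank
one over it.
-/

set_option autoImplicit false
set_option linter.unusedSectionVars false

noncomputable section

open UpperHalfPlane hiding I
open PowerSeries
open scoped MatrixGroups ModularForm

namespace FA.OrdinaryCount

open FA.PadicForms FA.LambdaHecke FA.LevelOneControl FA.OrdinaryReduced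

variable {p : ℕ} [Fact p.Prime] {k : ℕ}

/-- The generators. -/
def IsLvlGen (p k : ℕ) [Fact p.Prime] (a : Module.End ℚ_[p] ↥(qpSpace p k)) : Prop :=
  ∃ l : ℕ, l.Prime ∧ ∀ x : ↥(qpSpace p k),
    (a x : PowerSeries ℚ_[p]) = tSer ((l : ℚ_[p]) ^ (k - 1)) l (x : PowerSeries ℚ_[p])

theorem isLvlGen_commute {a b : Module.End ℚ_[p] ↥(qpSpace p k)} (ha : IsLvlGen p k a)
    (hb : IsLvlGen p k b) : Commute a b := by
  obtain ⟨l, hl, ha⟩ := ha
  obtain ⟨m, hm, hb⟩ := hb
  refine LinearMap.ext fun x => Subtype.ext ?_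
  rw [Module.End.mul_apply, Module.End.mul_apply, ha, hb, hb, ha]
  rcases eq_or_ne l m with rfl | hne
  · rfl
  · rw [tSer_comm _ _ hl hm hne]

/-- The Hecke algebra of weight `k`. -/
def lvlAlg (p k : ℕ) [Fact p.Prime] : Subalgebra ℚ_[p] (Module.End ℚ_[p] ↥(qpSpace p k)) :=
  Algebra.adjoin _ {a | IsLvlGen p k a}

theorem lvlAlg_commute {a b : Module.End ℚ_[p] ↥(qpSpace p k)}
    (ha : a ∈ lvlAlg p k) (hb : b ∈ lvlAlg p k) : Commute a b :=
  (Algebra.commute_of_mem_adjoin_of_forall_mem_commute ha fun _ hx =>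
    (Algebra.commute_of_mem_adjoin_of_forall_mem_commute hb fun _ hy =>
      isLvlGen_commute hx hy).symm).symm

instance commRingLvl : CommRing ↥(lvlAlg p k) :=
  { @Subalgebra.toRing ℚ_[p] (Module.End ℚ_[p] ↥(qpSpace p k)) _
      Module.End.instRing _ (lvlAlg p k) with
    mul_comm := fun a b => Subtype.ext (lvlAlg_commute a.2 b.2).eq }

theorem finite_lvlAlg : Module.Finite ℚ_[p] ↥(lvlAlg p k) :=
  Module.Finite.of_injective (lvlAlg p k).val.toLinearMap Subtype.val_injective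

theorem lvlAlg_semisimple (hk : 3 ≤ k) {a : Module.End ℚ_[p] ↥(qpSpace p k)}
    (ha : a ∈ lvlAlg p k) : a.IsSemisimple := by
  refine isSemisimple_of_mem_adjoin ?_ (fun b hb b' hb' => isLvlGen_commute hb hb') ha
  rintro b ⟨l, hl, hb⟩
  obtain ⟨t, ht, hte⟩ := exists_tW (p := p) hk hl
  rwa [show b = t from LinearMap.ext fun x => Subtype.ext (by rw [hb, hte])]

theorem isReduced_lvlAlg (hk : 3 ≤ k) : IsReduced ↥(lvlAlg p k) :=
  ⟨fun a ⟨j, hj⟩ => Subtype.ext (by
    refine Module.End.eq_zero_of_isNilpotent_isSemisimple ⟨j, ?_⟩ (lvlAlg_semisimple hk a.2)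
    rw [← SubmonoidClass.coe_pow, hj]
    rfl)⟩

theorem exists_tLvl (hk : 3 ≤ k) {l : ℕ} (hl : l.Prime) :
    ∃ T : ↥(lvlAlg p k), ∀ x : ↥(qpSpace p k),
      (((T : Module.End ℚ_[p] ↥(qpSpace p k)) x : ↥(qpSpace p k)) : PowerSeries ℚ_[p]) =
        tSer ((l : ℚ_[p]) ^ (k - 1)) l (x : PowerSeries ℚ_[p]) := by
  obtain ⟨t, -, hte⟩ := exists_tW (p := p) hk hl
  exact ⟨⟨t, Algebra.subset_adjoin ⟨l, hl, hte⟩⟩, hte⟩

/-- A series of the space is determined by its coefficients of positive index. -/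
theorem eq_zero_of_higher_series (hk : 1 ≤ k) {y : PowerSeries ℚ_[p]} (hy : y ∈ qpSpace p k)
    (h : ∀ n, 1 ≤ n → coeff n y = 0) : y = 0 := by
  obtain ⟨ι⟩ := nonempty_embedding p
  obtain ⟨G, hG⟩ := exists_form ι hy
  have h0 : G = 0 := eq_zero_of_higher hk fun n hn => by
    rw [hG, coeff_map, h n hn, map_zero]
  rw [h0, FunLike.coe_zero, UpperHalfPlane.qExpansion_zero] at hG
  exact PowerSeries.map_injective ι ι.injective (hG.symm.trans (map_zero _).symm)

/-- The first coefficient of `h f`. -/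
def lvlPair (p k : ℕ) [Fact p.Prime] :
    ↥(lvlAlg p k) →ₗ[ℚ_[p]] Module.Dual ℚ_[p] ↥(qpSpace p k) where
  toFun a := ((coeff 1).comp (qpSpace p k).subtype).comp
    (a : Module.End ℚ_[p] ↥(qpSpace p k))
  map_add' a b := LinearMap.ext fun y => by simp
  map_smul' r a := LinearMap.ext fun y => by simp

theorem lvlPair_apply (a : ↥(lvlAlg p k)) (x : ↥(qpSpace p k)) :
    lvlPair p k a x = coeff 1 (((a : Module.End ℚ_[p] ↥(qpSpace p k)) x : ↥(qpSpace p k)) :
      PowerSeries ℚ_[p]) := rfl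

theorem lvlPair_mul (a b : ↥(lvlAlg p k)) (x : ↥(qpSpace p k)) :
    lvlPair p k (a * b) x = lvlPair p k a ((b : Module.End ℚ_[p] ↥(qpSpace p k)) x) := rfl

/-- **The operators `T_n`**, `n ≥ 1`. -/
theorem exists_coeffOp (hk : 3 ≤ k) {n : ℕ} (hn : 1 ≤ n) :
    ∃ h : ↥(lvlAlg p k), ∀ x : ↥(qpSpace p k),
      lvlPair p k h x = coeff n (x : PowerSeries ℚ_[p]) := by
  induction n using Nat.strong_induction_on with
  | _ n ih =>
  rcases hn.eq_or_lt with rfl | hn2
  · exact ⟨1, fun x => rfl⟩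
  obtain ⟨l, hl, m, rfl⟩ : ∃ l, l.Prime ∧ l ∣ n := ⟨n.minFac, Nat.minFac_prime (by omega),
    n.minFac_dvd⟩
  have hm : 1 ≤ m := Nat.pos_of_ne_zero fun e => by simp [e] at hn
  have hml : m < l * m := lt_mul_of_one_lt_left hm hl.one_lt
  obtain ⟨A, hA⟩ := ih m hml hm
  obtain ⟨T, hT⟩ := exists_tLvl (p := p) hk hl
  by_cases hlm : l ∣ m
  · obtain ⟨B, hB⟩ := ih (m / l) ((Nat.div_le_self m l).trans_lt hml)
      (Nat.div_pos (Nat.le_of_dvd hm hlm) hl.pos)
    refine ⟨A * T - (l : ℚ_[p]) ^ (k - 1) • B, fun x => ?_⟩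
    rw [map_sub, map_smul, LinearMap.sub_apply, LinearMap.smul_apply, lvlPair_mul, hA, hB, hT,
      coeff_tSer, if_pos hlm, mul_comm l m, smul_eq_mul, add_sub_cancel_right]
  · refine ⟨A * T, fun x => ?_⟩
    rw [lvlPair_mul, hA, hT, coeff_tSer, if_neg hlm, add_zero, mul_comm l m]

theorem eq_zero_of_lvlPair (hk : 3 ≤ k) {x : ↥(qpSpace p k)}
    (h : ∀ a : ↥(lvlAlg p k), lvlPair p k a x = 0) : x = 0 :=
  Subtype.ext (eq_zero_of_higher_series (by omega) x.2 fun n hn => by
    obtain ⟨a, ha⟩ := exists_coeffOp (p := p) hk hn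
    rw [← ha, h])

/-- **Duality.** -/
theorem lvlPair_bijective (hk : 3 ≤ k) :
    Function.Bijective (lvlPair p k) ∧
      Module.finrank ℚ_[p] ↥(lvlAlg p k) = Module.finrank ℚ_[p] ↥(qpSpace p k) := by
  have := finite_lvlAlg (p := p) (k := k)
  choose T hT using fun n : ℕ => exists_coeffOp (p := p) (k := k) hk (Nat.succ_pos n)
  have hinj : Function.Injective (lvlPair p k) := (injective_iff_map_eq_zero _).2 fun a ha =>
    Subtype.ext (LinearMap.ext fun x => Subtype.ext (eq_zero_of_higher_series (by omega)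
      (Subtype.coe_prop _) fun n hn => by
        obtain ⟨b, hb⟩ := exists_coeffOp (p := p) hk hn
        rw [← hb, ← lvlPair_mul, mul_comm, lvlPair_mul, ha, LinearMap.zero_apply]))
  obtain ⟨hdim, -⟩ := finrank_eq_and_span (lvlPair p k) hinj T fun x hx =>
    Subtype.ext (eq_zero_of_higher_series (by omega) x.2 fun n hn => by
      obtain ⟨n, rfl⟩ : ∃ n', n = n' + 1 := ⟨n - 1, by omega⟩
      rw [← hT]
      exact hx n)
  exact ⟨⟨hinj, (LinearMap.injective_iff_surjective_of_finrank_eq_finrank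
    (by rw [Subspace.dual_finrank_eq, hdim])).1 hinj⟩, hdim⟩

/-- The operators `T_n` span the algebra. -/
theorem exists_spanning (hk : 3 ≤ k) : ∃ T : ℕ → ↥(lvlAlg p k),
    (∀ n (x : ↥(qpSpace p k)), lvlPair p k (T n) x = coeff (n + 1) (x : PowerSeries ℚ_[p])) ∧
      Submodule.span ℚ_[p] (Set.range T) = ⊤ := by
  have := finite_lvlAlg (p := p) (k := k)
  choose T hT using fun n : ℕ => exists_coeffOp (p := p) (k := k) hk (Nat.succ_pos n)
  refine ⟨T, hT, (finrank_eq_and_span (lvlPair p k) (lvlPair_bijective hk).1.1 T fun x hx =>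
    Subtype.ext (eq_zero_of_higher_series (by omega) x.2 fun n hn => ?_)).2⟩
  obtain ⟨n, rfl⟩ : ∃ n', n = n' + 1 := ⟨n - 1, by omega⟩
  rw [← hT]
  exact hx n

/-- A functional nondegenerate for multiplication. -/
theorem exists_nondegenerate {F A : Type*} [Field F] [CommRing A] [Algebra F A] [Module.Finite F A]
    [IsReduced A] : ∃ φ : A →ₗ[F] F, ∀ x, (∀ y, φ (x * y) = 0) → x = 0 := by
  classical
  have : IsArtinianRing A := IsArtinianRing.of_finite F A
  let : Fintype (MaximalSpectrum A) := Fintype.ofFinite _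
  have hφ : ∀ I : MaximalSpectrum A, ∃ g : A ⧸ I.asIdeal →ₗ[F] F, g 1 = 1 := fun I => by
    obtain ⟨g, hg⟩ := (LinearMap.toSpanSingleton F (A ⧸ I.asIdeal) 1).exists_leftInverse_of_injective
      (LinearMap.ker_eq_bot'.2 fun r hr => by
        rw [LinearMap.toSpanSingleton_apply, smul_eq_zero] at hr
        exact hr.resolve_right fun e => (Ideal.Quotient.nontrivial_iff.2 I.isMaximal.ne_top).exists_pair_ne.elim
          fun a ⟨b, hab⟩ => hab (by rw [← mul_one a, ← mul_one b, e, mul_zero, mul_zero]))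
    exact ⟨g, by simpa using LinearMap.congr_fun hg 1⟩
  choose g hg using hφ
  refine ⟨∑ I, (g I).comp (Ideal.Quotient.mkₐ F I.asIdeal).toLinearMap, fun x hx => ?_⟩
  obtain ⟨e, he⟩ : ∃ e : A ≃ₐ[A] ∀ I : MaximalSpectrum A, A ⧸ I.asIdeal, ∀ a I,
      e a I = Ideal.Quotient.mk I.asIdeal a :=
    ⟨IsArtinianRing.equivPi A, fun a I => congrFun ((IsArtinianRing.equivPi A).commutes a) I⟩
  refine e.injective (funext fun I => ?_)
  rw [map_zero, Pi.zero_apply]
  by_contra hne
  rw [he] at hne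
  let := Ideal.Quotient.field I.asIdeal
  obtain ⟨y, hy⟩ := e.surjective (Pi.single I (Ideal.Quotient.mk I.asIdeal x)⁻¹)
  have h := hx y
  rw [LinearMap.sum_apply, Finset.sum_eq_single I (fun J _ hJ => by
    rw [LinearMap.comp_apply, AlgHom.toLinearMap_apply, Ideal.Quotient.mkₐ_eq_mk, map_mul,
      ← he y J, hy, Pi.single_eq_of_ne hJ, mul_zero, map_zero]) (fun h => absurd (Finset.mem_univ I) h),
    LinearMap.comp_apply, AlgHom.toLinearMap_apply, Ideal.Quotient.mkₐ_eq_mk, map_mul, ← he y I,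
    hy, Pi.single_eq_same, mul_inv_cancel₀ hne, hg] at h
  exact one_ne_zero h

/-- **The space is free of rank one over the algebra.** -/
theorem exists_cyclic (hk : 3 ≤ k) : ∃ w : ↥(qpSpace p k),
    Function.Bijective fun a : ↥(lvlAlg p k) => (a : Module.End ℚ_[p] ↥(qpSpace p k)) w := by
  have := finite_lvlAlg (p := p) (k := k)
  have := isReduced_lvlAlg (p := p) hk
  obtain ⟨φ, hφ⟩ := exists_nondegenerate (F := ℚ_[p]) (A := ↥(lvlAlg p k))
  obtain ⟨hbij, hdim⟩ := lvlPair_bijective (p := p) hk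
  have hflip : Function.Injective (lvlPair p k).flip :=
    (injective_iff_map_eq_zero _).2 fun x hx =>
      eq_zero_of_lvlPair hk fun a => LinearMap.congr_fun hx a
  obtain ⟨w, hw⟩ := (LinearMap.injective_iff_surjective_of_finrank_eq_finrank
    (by rw [Subspace.dual_finrank_eq, hdim])).1 hflip φ
  obtain ⟨f, hf⟩ : ∃ f : ↥(lvlAlg p k) →ₗ[ℚ_[p]] ↥(qpSpace p k),
      ∀ a : ↥(lvlAlg p k), f a = (a : Module.End ℚ_[p] ↥(qpSpace p k)) w :=
    ⟨(LinearMap.applyₗ w).comp (lvlAlg p k).val.toLinearMap, fun _ => rfl⟩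
  have hinj : Function.Injective f := (injective_iff_map_eq_zero _).2 fun a ha =>
    hφ a fun b => by
      rw [← hw, LinearMap.flip_apply, mul_comm, lvlPair_mul, ← hf, ha, map_zero]
  refine ⟨w, ?_⟩
  rw [show (fun a : ↥(lvlAlg p k) => (a : Module.End ℚ_[p] ↥(qpSpace p k)) w) = f from
    funext fun a => (hf a).symm]
  exact ⟨hinj, (LinearMap.injective_iff_surjective_of_finrank_eq_finrank hdim).1 hinj⟩

end FA.OrdinaryCount

end
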