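import Fermat.Agent.OrdinaryCount.Ordinary
import Fermat.Agent.OrdinaryProj.Eisenstein
import Fermat.Agent.Tau.SupersingularClassNumber
import Fermat.Agent.CuspClass.Eleven

/-!
# The Eisenstein eigenform and the classes with a known rank

The only eigenform with a constant term is Eisenstein's and it is ordinary; the class of `2` has
rank one more than the genus of `X₀(p)`, the classes of `4, 6, 8, 10, 14` rank one.
-/

set_option autoImplicit false
set_option linter.unusedSectionVars false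

noncomputable section

open UpperHalfPlane hiding I
open PowerSeries
open scoped MatrixGroups ModularForm ArithmeticFunction.sigma

namespace FA.OrdinaryCount

open FA.PadicForms FA.OrdinaryProj FA.LambdaHecke FA.OrdinaryReduced FA.SwinnertonDyer

variable {p : ℕ} [Fact p.Prime] {k k' : ℕ}

theorem bernoulli_even_ne_zero (hev : Even k) (hk : 4 ≤ k) : bernoulli k ≠ 0 := fun h => by
  have := FA.SerreDenominators.pow_succ_dvd_den hev Nat.prime_two (one_dvd _) (e := 0) (one_dvd _)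
    (by omega)
  rw [h, zero_div, Rat.den_zero] at this
  exact absurd (Nat.le_of_dvd one_pos this) (by norm_num)

/-- The Eisenstein eigenform. -/
theorem exists_eisenstein (hev : Even k) (hk : 4 ≤ k) :
    ∃ F : ModularForm 𝒮ℒ (k : ℤ), IsEigenForm F ∧ (qExpansion 1 ⇑F).coeff 0 ≠ 0 ∧
      (∀ l : ℕ, l.Prime → (qExpansion 1 ⇑F).coeff l = 1 + (l : ℂ) ^ (k - 1)) := by
  obtain ⟨F, hF⟩ := isRatForm_eisSer hev hk
  have hl' : ∀ l : ℕ, l.Prime → coeff l (eisSer k) = 1 + (l : ℚ) ^ (k - 1) := fun l hl => by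
    rw [eisSer, coeff_mk, if_neg hl.ne_zero, ArithmeticFunction.sigma_apply, hl.divisors,
      Finset.sum_pair hl.one_lt.ne]
    simp
  refine ⟨F, ⟨?_, fun l hl n => ?_⟩, ?_, fun l hl => ?_⟩
  · rw [hF, coeff_map, eisSer, coeff_mk, if_neg one_ne_zero, ArithmeticFunction.sigma_one]
    simp
  · have h := congrArg (fun S => ((coeff n S : ℚ) : ℂ)) (opT_eisSer (k := k) hl)
    simp only [opT, coeff_tSer, PowerSeries.coeff_smul, smul_eq_mul, apply_ite (Rat.cast (K := ℂ)),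
      Rat.cast_add, Rat.cast_mul, Rat.cast_pow, Rat.cast_natCast, Rat.cast_zero, Rat.cast_one] at h
    simp only [hF, coeff_map, eq_ratCast, hl' l hl, Rat.cast_add, Rat.cast_pow, Rat.cast_natCast,
      Rat.cast_one]
    exact h
  · rw [hF, coeff_map, eisSer, coeff_mk, if_pos rfl, eq_ratCast, Rat.cast_ne_zero, neg_ne_zero]
    exact div_ne_zero (bernoulli_even_ne_zero hev hk) (by simp; omega)
  · rw [hF, coeff_map, hl' l hl]
    simp

/-- An eigenform with a constant term has the Eisenstein coefficients. -/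
theorem coeff_prime_of_noncusp {F : ModularForm 𝒮ℒ (k : ℤ)} (hF : IsEigenForm F)
    (h0 : (qExpansion 1 ⇑F).coeff 0 ≠ 0) {l : ℕ} (hl : l.Prime) :
    (qExpansion 1 ⇑F).coeff l = 1 + (l : ℂ) ^ (k - 1) := by
  have h := hF.2 l hl 0
  rw [zero_mul, if_pos (dvd_zero l), Nat.zero_div] at h
  exact mul_right_cancel₀ h0 (by rw [← h]; ring)

theorem isUnitAt_eisenstein (ι : ℚ_[p] →+* ℂ) (hk : 2 ≤ k) {F : ModularForm 𝒮ℒ (k : ℤ)}
    (h : (qExpansion 1 ⇑F).coeff p = 1 + (p : ℂ) ^ (k - 1)) : IsUnitAt ι F := by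
  have hc : (iotaInt ι).IsIntegralElem (-(p : ℂ) ^ (k - 2)) :=
    by
      have h1 := RingHom.isIntegralElem_map (iotaInt ι) (x := -(p : ℤ_[p]) ^ (k - 2))
      rwa [map_neg, map_pow, map_natCast] at h1
  obtain ⟨hne, hinv⟩ := isIntegralElem_inv_sub ι hc
  have e : 1 - (p : ℂ) * -(p : ℂ) ^ (k - 2) = (qExpansion 1 ⇑F).coeff p := by
    rw [h, mul_neg, sub_neg_eq_add, ← pow_succ', show k - 2 + 1 = k - 1 by omega]
  rw [e] at hne hinv
  refine ⟨hne, ?_, hinv⟩
  have h1 := RingHom.isIntegralElem_map (iotaInt ι) (x := 1 + (p : ℤ_[p]) ^ (k - 1))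
  rwa [map_add, map_one, map_pow, map_natCast, ← h] at h1

/-- **Exactly one ordinary eigenform has a constant term.** -/
theorem cusp_count (h5 : 5 ≤ p) (hev : Even k) (hk : 4 ≤ k) (ι : ℚ_[p] →+* ℂ) :
    Finite {F : ModularForm 𝒮ℒ (k : ℤ) //
        IsEigenForm F ∧ IsUnitAt ι F ∧ (qExpansion 1 ⇑F).coeff 0 = 0} ∧
      Nat.card {F : ModularForm 𝒮ℒ (k : ℤ) //
        IsEigenForm F ∧ IsUnitAt ι F ∧ (qExpansion 1 ⇑F).coeff 0 = 0} + 1 =
        Module.finrank (ZMod p) ↥(ordModP p k) := by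
  classical
  obtain ⟨E, hE, hE0, hEl⟩ := exists_eisenstein hev hk
  have hEu : IsUnitAt ι E := isUnitAt_eisenstein ι (by omega) (hEl p Fact.out)
  obtain ⟨hfin, hcard⟩ := ordinary_eigen_count (k := k) h5 (by omega) ι
  obtain ⟨s, hs⟩ : ∃ s : Set (ModularForm 𝒮ℒ (k : ℤ)),
      s = {F | IsEigenForm F ∧ IsUnitAt ι F} := ⟨_, rfl⟩
  have hsfin : s.Finite := hs ▸ Set.finite_coe_iff.1 hfin
  have hd : {F : ModularForm 𝒮ℒ (k : ℤ) |
      IsEigenForm F ∧ IsUnitAt ι F ∧ (qExpansion 1 ⇑F).coeff 0 = 0} = s \ {E} := by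
    ext F
    rw [hs]
    refine ⟨fun h => ⟨⟨h.1, h.2.1⟩, fun e => hE0 (e ▸ h.2.2)⟩, fun h => ⟨h.1.1, h.1.2, ?_⟩⟩
    by_contra h0
    exact h.2 (eigen_ext (by omega) h.1.1 hE fun l hl => by
      rw [coeff_prime_of_noncusp h.1.1 h0 hl, hEl l hl])
  refine ⟨Set.finite_coe_iff.2 (show Set.Finite {F : ModularForm 𝒮ℒ (k : ℤ) |
      IsEigenForm F ∧ IsUnitAt ι F ∧ (qExpansion 1 ⇑F).coeff 0 = 0} by
    rw [hd]; exact hsfin.subset Set.sdiff_subset), ?_⟩
  rw [← hcard, show Nat.card {F : ModularForm 𝒮ℒ (k : ℤ) //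
      IsEigenForm F ∧ IsUnitAt ι F ∧ (qExpansion 1 ⇑F).coeff 0 = 0} = (s \ {E}).ncard by
    rw [← hd, ← Nat.card_coe_set_eq]; rfl]
  rw [Set.ncard_sdiff_singleton_add_one (by rw [hs]; exact ⟨hE, hEu⟩) hsfin, hs,
    ← Nat.card_coe_set_eq]
  rfl

/-- The rank depends only on the class. -/
theorem finrank_ordModP_congr (h5 : 5 ≤ p) (hk : 3 ≤ k) (hk' : 3 ≤ k')
    (h : (k : ZMod (p - 1)) = (k' : ZMod (p - 1))) :
    Module.finrank (ZMod p) ↥(ordModP p k) = Module.finrank (ZMod p) ↥(ordModP p k') := by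
  rw [← (finrank_ordPart (κ := natWeight p k) h5 hk rfl).2,
    (finrank_ordPart (κ := natWeight p k) h5 hk' h.symm).2]

/-- **The class of `2`.** -/
theorem finrank_class_two (h5 : 5 ≤ p) (hk : 3 ≤ k) (h : (k : ZMod (p - 1)) = 2) :
    Module.finrank (ZMod p) ↥(ordModP p k) =
      Module.finrank ℂ (CuspForm (CongruenceSubgroup.Gamma0 p) 2) + 1 := by
  have hc : ((p + 1 : ℕ) : ZMod (p - 1)) = 2 := by
    rw [show p + 1 = p - 1 + 2 by omega, Nat.cast_add, ZMod.natCast_self, zero_add, Nat.cast_two]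
  have e : ordModP p (p + 1) = FA.SupersingularPoints.formSpace p := by
    refine Submodule.ext fun v => ?_
    rw [mem_ordModP h5, FA.SupersingularPoints.mem_formSpace h5]
    refine ⟨fun hv => hv.1, fun hv => ⟨hv, 2, two_pos, ?_⟩⟩
    rw [← uPow_eq_iterate]
    exact uOp_uOp h5 hv
  rw [finrank_ordModP_congr h5 hk (by omega : 3 ≤ p + 1) (h.trans hc.symm), e,
    FA.SupersingularPoints.finrank_formSpace h5, FA.SupersingularPoints.ncard_eq h5]

/-- **The Eisenstein classes.** -/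
theorem finrank_eisenstein_class (h5 : 5 ≤ p) (hk : 3 ≤ k) {k₀ : ℕ}
    (hk₀ : k₀ ∈ ({4, 6, 8, 10, 14} : Finset ℕ))
    (h : (k : ZMod (p - 1)) = (k₀ : ZMod (p - 1))) :
    Module.finrank (ZMod p) ↥(ordModP p k) = 1 := by
  obtain ⟨h3, j, hj⟩ : 3 ≤ k₀ ∧ ∃ j, k₀ = 2 * j := by
    simp only [Finset.mem_insert, Finset.mem_singleton] at hk₀
    exact ⟨by omega, k₀ / 2, by omega⟩
  refine le_antisymm ?_ ?_
  · obtain ⟨w, hw⟩ := ordModP_le_line (p := p) h5 hk₀
    rw [finrank_ordModP_congr h5 hk h3 h]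
    refine (Submodule.finrank_mono hw).trans ?_
    simpa using finrank_span_le_card (R := ZMod p) ({w} : Set (PowerSeries (ZMod p)))
  · rw [← (finrank_ordPart (κ := natWeight p k) h5 hk rfl).2]
    exact one_le_finrank h5 (κ := natWeight p k) (show (k : ZMod (p - 1)) = ((2 * j : ℕ) : _) by
      rw [h, hj])

/-- Every even class for `p = 5, 7` is an Eisenstein class. -/
theorem finrank_five_seven (hp : p = 5 ∨ p = 7) (hev : Even k) (hk : 3 ≤ k) :
    Module.finrank (ZMod p) ↥(ordModP p k) = 1 := by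
  obtain ⟨j, rfl⟩ := hev
  refine finrank_eisenstein_class (by omega) hk
    (k₀ := if p = 5 then (if j % 2 = 0 then 4 else 6)
      else (if j % 3 = 0 then 6 else if j % 3 = 1 then 8 else 4)) ?_ ?_
  · simp only [Finset.mem_insert, Finset.mem_singleton]
    split_ifs <;> simp
  · rw [ZMod.natCast_eq_natCast_iff']
    rcases hp with rfl | rfl <;> simp only [Nat.reduceSub, Nat.reduceEqDiff, if_true, if_false] <;>
      split_ifs <;> omega

end FA.OrdinaryCount

end
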