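import Fermat.Agent.OrdinaryCount.Algebra

/-!
# Complex eigenforms and characters of the algebra over `ℚ_p`

Under an embedding `ℚ_p → ℂ` the normalised eigenforms of a weight are the characters of the
algebra, so they are as many as the dimension, and a basis.
-/

set_option autoImplicit false
set_option linter.unusedSectionVars false

noncomputable section

open UpperHalfPlane hiding I
open PowerSeries
open scoped MatrixGroups ModularForm

namespace FA.OrdinaryCount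

open FA.Eis FA.Tau FA.PadicForms FA.LambdaHecke FA.LevelOneControl FA.OrdinaryReduced

variable {p : ℕ} [Fact p.Prime] {k : ℕ}

theorem tSer_C_mul {R : Type*} [CommRing R] (θ : R) (l : ℕ) (c : R) (f : PowerSeries R) :
    tSer θ l (C c * f) = C c * tSer θ l f := by
  rw [← PowerSeries.smul_eq_C_mul, map_smul, PowerSeries.smul_eq_C_mul]

/-- The relations of an eigenform as an equation of series. -/
theorem IsEigenForm.tSer_eq {F : ModularForm 𝒮ℒ (k : ℤ)} (hF : IsEigenForm F) {l : ℕ}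
    (hl : l.Prime) : tSer ((l : ℂ) ^ (k - 1)) l (qExpansion 1 ⇑F) =
      C ((qExpansion 1 ⇑F).coeff l) * qExpansion 1 ⇑F :=
  PowerSeries.ext fun n => by rw [coeff_tSer, coeff_C_mul]; exact hF.2 l hl n

/-- Combinations of series of the space are series of forms. -/
theorem exists_form_sum (ι : ℚ_[p] →+* ℂ) {r : ℕ} (x : Fin r → ℂ)
    (w : Fin r → ↥(qpSpace p k)) : ∃ H : ModularForm 𝒮ℒ (k : ℤ),
      qExpansion 1 ⇑H = ∑ i, C (x i) * (w i : PowerSeries ℚ_[p]).map ι := by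
  choose G hG using fun i => exists_form ι (w i).2
  refine ⟨∑ i, x i • G i, PowerSeries.ext fun n => ?_⟩
  rw [coeff_sum, map_sum]
  exact Finset.sum_congr rfl fun i _ => by rw [hG, coeff_C_mul]

/-- `T_l` of a form is a form. -/
theorem exists_form_tSer (ι : ℚ_[p] →+* ℂ) (hk : 1 ≤ k) (F : ModularForm 𝒮ℒ (k : ℤ)) {l : ℕ}
    (hl : l.Prime) : ∃ H : ModularForm 𝒮ℒ (k : ℤ),
      qExpansion 1 ⇑H = tSer ((l : ℂ) ^ (k - 1)) l (qExpansion 1 ⇑F) := by
  obtain ⟨r, x, w, hF⟩ := exists_expansion ι F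
  obtain ⟨H, hH⟩ := exists_form_sum ι x fun i => ⟨_, tSer_mem hk hl (w i).2⟩
  refine ⟨H, ?_⟩
  rw [hH, hF, map_sum]
  refine Finset.sum_congr rfl fun i _ => ?_
  rw [tSer_C_mul, map_tSer, map_pow, map_natCast]

/-- `t` is the scalar by which `a` acts on `F`. -/
def ActsBy (ι : ℚ_[p] →+* ℂ) (F : ModularForm 𝒮ℒ (k : ℤ))
    (a : Module.End ℚ_[p] ↥(qpSpace p k)) (t : ℂ) : Prop :=
  ∀ (r : ℕ) (x : Fin r → ℂ) (w : Fin r → ↥(qpSpace p k)) (s : ℂ),
    (∑ i, C (x i) * (w i : PowerSeries ℚ_[p]).map ι) = C s * qExpansion 1 ⇑F →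
    (∑ i, C (x i) * (a (w i) : PowerSeries ℚ_[p]).map ι) = C (t * s) * qExpansion 1 ⇑F

variable {ι : ℚ_[p] →+* ℂ} {F : ModularForm 𝒮ℒ (k : ℤ)}
  {a b : Module.End ℚ_[p] ↥(qpSpace p k)} {t u : ℂ}

theorem ActsBy.mul (ha : ActsBy ι F a t) (hb : ActsBy ι F b u) : ActsBy ι F (a * b) (t * u) :=
  fun r x w s h => by rw [mul_assoc]; exact ha r x _ _ (hb r x w s h)

theorem ActsBy.add (ha : ActsBy ι F a t) (hb : ActsBy ι F b u) : ActsBy ι F (a + b) (t + u) :=
  fun r x w s h => by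
    rw [add_mul, map_add, add_mul, ← ha r x w s h, ← hb r x w s h, ← Finset.sum_add_distrib]
    refine Finset.sum_congr rfl fun i _ => ?_
    rw [LinearMap.add_apply, Submodule.coe_add, map_add, mul_add]

theorem actsBy_algebraMap (ι : ℚ_[p] →+* ℂ) (F : ModularForm 𝒮ℒ (k : ℤ)) (c : ℚ_[p]) :
    ActsBy ι F (algebraMap ℚ_[p] (Module.End ℚ_[p] ↥(qpSpace p k)) c) (ι c) := fun r x w s h => by
  rw [map_mul, mul_assoc, ← h, Finset.mul_sum]
  refine Finset.sum_congr rfl fun i _ => ?_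
  rw [Module.algebraMap_end_apply, Submodule.coe_smul, PowerSeries.smul_eq_C_mul, map_mul,
    PowerSeries.map_C, mul_left_comm]

theorem actsBy_gen (hF : IsEigenForm F) {l : ℕ} (hl : l.Prime)
    (ha : ∀ x : ↥(qpSpace p k),
      (a x : PowerSeries ℚ_[p]) = tSer ((l : ℚ_[p]) ^ (k - 1)) l (x : PowerSeries ℚ_[p])) :
    ActsBy ι F a ((qExpansion 1 ⇑F).coeff l) := fun r x w s h => by
  rw [show (∑ i, C (x i) * (a (w i) : PowerSeries ℚ_[p]).map ι) = tSer ((l : ℂ) ^ (k - 1)) l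
      (∑ i, C (x i) * (w i : PowerSeries ℚ_[p]).map ι) by
    rw [map_sum]
    refine Finset.sum_congr rfl fun i _ => ?_
    rw [tSer_C_mul, ha, map_tSer, map_pow, map_natCast], h, tSer_C_mul, hF.tSer_eq hl, map_mul,
    ← mul_assoc, mul_comm (C s)]

theorem ActsBy.unique (hF : IsEigenForm F) (ha : ActsBy ι F a t) (ha' : ActsBy ι F a u) :
    t = u := by
  obtain ⟨r, x, w, hx⟩ := exists_expansion ι F
  have h0 : (∑ i, C (x i) * (w i : PowerSeries ℚ_[p]).map ι) = C 1 * qExpansion 1 ⇑F := by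
    rw [map_one, one_mul, hx]
  have h := congrArg (coeff 1) ((ha r x w 1 h0).symm.trans (ha' r x w 1 h0))
  rwa [coeff_C_mul, coeff_C_mul, hF.1, mul_one, mul_one, mul_one, mul_one] at h

theorem exists_actsBy (ι : ℚ_[p] →+* ℂ) (hF : IsEigenForm F) (z : ↥(lvlAlg p k)) :
    ∃ t, ActsBy ι F (z : Module.End ℚ_[p] ↥(qpSpace p k)) t := by
  obtain ⟨a, ha⟩ := z
  induction ha using Algebra.adjoin_induction with
  | mem a ha =>
    obtain ⟨l, hl, hla⟩ := ha
    exact ⟨_, actsBy_gen hF hl hla⟩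
  | algebraMap c => exact ⟨_, actsBy_algebraMap ι F c⟩
  | add a b _ _ ha hb =>
    obtain ⟨t, ht⟩ := ha
    obtain ⟨u, hu⟩ := hb
    exact ⟨_, ht.add hu⟩
  | mul a b _ _ ha hb =>
    obtain ⟨t, ht⟩ := ha
    obtain ⟨u, hu⟩ := hb
    exact ⟨_, ht.mul hu⟩

/-- The characters over `ι`. -/
abbrev Chars (ι : ℚ_[p] →+* ℂ) (k : ℕ) : Type :=
  {χ : ↥(lvlAlg p k) →+* ℂ // ∀ c, χ (algebraMap ℚ_[p] ↥(lvlAlg p k) c) = ι c}

theorem chars_ext {χ χ' : Chars ι k}
    (h : ∀ (l : ℕ) (T : ↥(lvlAlg p k)), l.Prime → (∀ x : ↥(qpSpace p k),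
      ((T : Module.End ℚ_[p] ↥(qpSpace p k)) x : PowerSeries ℚ_[p]) =
        tSer ((l : ℚ_[p]) ^ (k - 1)) l (x : PowerSeries ℚ_[p])) → χ.1 T = χ'.1 T) :
    χ = χ' := by
  refine Subtype.ext (RingHom.ext fun z => ?_)
  obtain ⟨a, ha⟩ := z
  induction ha using Algebra.adjoin_induction with
  | mem a ha =>
    obtain ⟨l, hl, hla⟩ := ha
    exact h l _ hl hla
  | algebraMap c => exact (χ.2 c).trans (χ'.2 c).symm
  | add a b hma hmb ha hb =>
    exact (map_add χ.1 ⟨a, hma⟩ ⟨b, hmb⟩).trans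
      ((congrArg₂ (· + ·) ha hb).trans (map_add χ'.1 ⟨a, hma⟩ ⟨b, hmb⟩).symm)
  | mul a b hma hmb ha hb =>
    exact (map_mul χ.1 ⟨a, hma⟩ ⟨b, hmb⟩).trans
      ((congrArg₂ (· * ·) ha hb).trans (map_mul χ'.1 ⟨a, hma⟩ ⟨b, hmb⟩).symm)

/-- The character of an eigenform. -/
theorem exists_char (ι : ℚ_[p] →+* ℂ) (hF : IsEigenForm F) :
    ∃ χ : Chars ι k, ∀ z : ↥(lvlAlg p k),
      ActsBy ι F (z : Module.End ℚ_[p] ↥(qpSpace p k)) (χ.1 z) := by
  choose f hf using exists_actsBy (p := p) (k := k) ι hF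
  have hc : ∀ c, f (algebraMap ℚ_[p] ↥(lvlAlg p k) c) = ι c := fun c =>
    (hf _).unique hF (actsBy_algebraMap ι F c)
  refine ⟨⟨{ toFun := f, map_one' := ?_, map_mul' := fun a b => ?_, map_zero' := ?_,
             map_add' := fun a b => ?_ }, hc⟩, hf⟩
  · rw [← map_one (algebraMap ℚ_[p] ↥(lvlAlg p k)), hc, map_one]
  · exact (hf _).unique hF ((hf a).mul (hf b))
  · rw [← map_zero (algebraMap ℚ_[p] ↥(lvlAlg p k)), hc, map_zero]
  · exact (hf _).unique hF ((hf a).add (hf b))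

/-- The eigenform of a character. -/
theorem exists_eigen (ι : ℚ_[p] →+* ℂ) (hk : 3 ≤ k) (χ : Chars ι k) :
    ∃ F : ModularForm 𝒮ℒ (k : ℤ), IsEigenForm F ∧ ∀ n (a : ↥(lvlAlg p k)), 1 ≤ n →
      (∀ x : ↥(qpSpace p k), lvlPair p k a x = coeff n (x : PowerSeries ℚ_[p])) →
      (qExpansion 1 ⇑F).coeff n = χ.1 a := by
  classical
  have := finite_lvlAlg (p := p) (k := k)
  obtain ⟨hbij, hdim⟩ := lvlPair_bijective (p := p) hk
  have hflip : Function.Surjective (lvlPair p k).flip :=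
    (LinearMap.injective_iff_surjective_of_finrank_eq_finrank
      (by rw [Subspace.dual_finrank_eq, hdim])).1
      ((injective_iff_map_eq_zero _).2 fun x hx =>
        eq_zero_of_lvlPair hk fun a => LinearMap.congr_fun hx a)
  obtain ⟨e, -⟩ : ∃ e : Module.Basis (Fin (Module.finrank ℚ_[p] ↥(lvlAlg p k))) ℚ_[p]
      ↥(lvlAlg p k), True := ⟨Module.finBasis _ _, trivial⟩
  choose w hw using fun i => hflip (e.coord i)
  have hcoef : ∀ n (a : ↥(lvlAlg p k)) (y : Fin _ → ↥(qpSpace p k)),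
      (∀ i, ι (coeff n (y i : PowerSeries ℚ_[p])) = ι (lvlPair p k a (w i))) →
      (∑ i, χ.1 (e i) * ι (coeff n (y i : PowerSeries ℚ_[p]))) = χ.1 a := fun n a y hy => by
    conv_rhs => rw [← e.sum_repr a, map_sum]
    refine Finset.sum_congr rfl fun i _ => ?_
    rw [hy, Algebra.smul_def, map_mul, χ.2, ← LinearMap.flip_apply, hw, e.coord_apply, mul_comm]
  obtain ⟨F, hF⟩ := exists_form_sum ι (fun i => χ.1 (e i)) w
  have hn : ∀ n (a : ↥(lvlAlg p k)), 1 ≤ n →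
      (∀ x : ↥(qpSpace p k), lvlPair p k a x = coeff n (x : PowerSeries ℚ_[p])) →
      (qExpansion 1 ⇑F).coeff n = χ.1 a := fun n a _ ha => by
    rw [hF, map_sum, ← hcoef n a w fun i => by rw [ha]]
    exact Finset.sum_congr rfl fun i _ => by rw [coeff_C_mul, coeff_map]
  refine ⟨F, ⟨?_, fun l hl => ?_⟩, hn⟩
  · rw [hn 1 1 le_rfl fun x => rfl, map_one]
  obtain ⟨T, hT⟩ := exists_tLvl (p := p) hk hl
  have hal : (qExpansion 1 ⇑F).coeff l = χ.1 T := hn l T hl.one_le fun x => by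
    rw [lvlPair_apply, hT, coeff_tSer, one_mul,
      if_neg (fun h => hl.one_lt.ne' (Nat.dvd_one.1 h)), add_zero]
  obtain ⟨H, hH⟩ := exists_form_tSer ι (by omega) F hl
  have heq : H = χ.1 T • F := eq_of_higher (by omega) fun n h1 => by
    obtain ⟨A, hA⟩ := exists_coeffOp (p := p) hk h1
    rw [FunLike.coe_smul, ((hasQ_form F).smul _).qExpansion_eq one_pos, PowerSeries.coeff_smul,
      hn n A h1 hA, smul_eq_mul, ← map_mul, mul_comm T A, hH, hF, map_sum, map_sum,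
      ← hcoef n (A * T) (fun i => (T : Module.End ℚ_[p] ↥(qpSpace p k)) (w i)) fun i => by
        rw [lvlPair_mul, hA]]
    refine Finset.sum_congr rfl fun i _ => ?_
    rw [tSer_C_mul, coeff_C_mul, ← coeff_map, hT, map_tSer, map_pow, map_natCast]
  intro n
  have h := congrArg (coeff n) hH
  rw [heq, FunLike.coe_smul, ((hasQ_form F).smul _).qExpansion_eq one_pos,
    PowerSeries.coeff_smul, smul_eq_mul, coeff_tSer, ← hal] at h
  exact h.symm

/-- An eigenform is determined by its coefficients at the primes. -/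
theorem eigen_ext (hk : 1 ≤ k) {F G : ModularForm 𝒮ℒ (k : ℤ)} (hF : IsEigenForm F)
    (hG : IsEigenForm G)
    (h : ∀ l : ℕ, l.Prime → (qExpansion 1 ⇑F).coeff l = (qExpansion 1 ⇑G).coeff l) : F = G := by
  refine eq_of_higher hk fun n => ?_
  induction n using Nat.strong_induction_on with
  | _ n ih =>
  intro hn
  rcases hn.eq_or_lt with rfl | hn2
  · rw [hF.1, hG.1]
  obtain ⟨l, hl, m, rfl⟩ : ∃ l, l.Prime ∧ l ∣ n := ⟨n.minFac, Nat.minFac_prime (by omega),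
    n.minFac_dvd⟩
  have hm : 1 ≤ m := Nat.pos_of_ne_zero fun e => by simp [e] at hn
  have hml : m < l * m := lt_mul_of_one_lt_left hm hl.one_lt
  have h1 := hF.2 l hl m
  have h2 := hG.2 l hl m
  rw [h l hl, ih m hml hm, ← h2, mul_comm m l] at h1
  by_cases hd : l ∣ m
  · rw [if_pos hd, if_pos hd, ih (m / l) ((Nat.div_le_self m l).trans_lt hml)
      (Nat.div_pos (Nat.le_of_dvd hm hd) hl.pos)] at h1
    exact add_right_cancel h1
  · rwa [if_neg hd, if_neg hd, add_zero, add_zero] at h1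

/-- The coefficient at a prime. -/
theorem char_apply (hF : IsEigenForm F) {χ : Chars ι k}
    (hχ : ∀ z : ↥(lvlAlg p k), ActsBy ι F (z : Module.End ℚ_[p] ↥(qpSpace p k)) (χ.1 z))
    {l : ℕ} (hl : l.Prime) {T : ↥(lvlAlg p k)}
    (hT : ∀ x : ↥(qpSpace p k), ((T : Module.End ℚ_[p] ↥(qpSpace p k)) x : PowerSeries ℚ_[p]) =
      tSer ((l : ℚ_[p]) ^ (k - 1)) l (x : PowerSeries ℚ_[p])) :
    χ.1 T = (qExpansion 1 ⇑F).coeff l :=
  (hχ T).unique hF (actsBy_gen hF hl hT)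

/-- **Eigenforms are characters.** -/
theorem exists_char_equiv (ι : ℚ_[p] →+* ℂ) (hk : 3 ≤ k) :
    ∃ Ψ : {F : ModularForm 𝒮ℒ (k : ℤ) // IsEigenForm F} ≃ Chars ι k,
      ∀ F (n : ℕ) (a : ↥(lvlAlg p k)), 1 ≤ n →
        (∀ x : ↥(qpSpace p k), lvlPair p k a x = coeff n (x : PowerSeries ℚ_[p])) →
        (Ψ F).1 a = (qExpansion 1 ⇑F.1).coeff n := by
  choose G hG hGn using exists_eigen (p := p) ι hk
  choose χ hχ using fun F : {F : ModularForm 𝒮ℒ (k : ℤ) // IsEigenForm F} =>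
    exists_char ι F.2
  have hprime : ∀ (c : Chars ι k) (l : ℕ) (T : ↥(lvlAlg p k)), l.Prime → (∀ x : ↥(qpSpace p k),
      ((T : Module.End ℚ_[p] ↥(qpSpace p k)) x : PowerSeries ℚ_[p]) =
        tSer ((l : ℚ_[p]) ^ (k - 1)) l (x : PowerSeries ℚ_[p])) →
      (qExpansion 1 ⇑(G c)).coeff l = c.1 T := fun c l T hl hT =>
    hGn c l T hl.one_le fun x => by
      rw [lvlPair_apply, hT, coeff_tSer, one_mul,
        if_neg (fun h => hl.one_lt.ne' (Nat.dvd_one.1 h)), add_zero]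
  have hright : ∀ c, χ ⟨G c, hG c⟩ = c := fun c => chars_ext fun l T hl hT => by
    rw [char_apply (hG c) (hχ ⟨G c, hG c⟩) hl hT, hprime c l T hl hT]
  have hleft : ∀ F, (⟨G (χ F), hG _⟩ : {F : ModularForm 𝒮ℒ (k : ℤ) // IsEigenForm F}) = F :=
    fun F => Subtype.ext (eigen_ext (by omega) (hG _) F.2 fun l hl => by
      obtain ⟨T, hT⟩ := exists_tLvl (p := p) hk hl
      rw [hprime _ l T hl hT, char_apply F.2 (hχ F) hl hT])
  refine ⟨⟨χ, fun c => ⟨G c, hG c⟩, hleft, hright⟩, fun F n a hn ha => ?_⟩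
  rw [Equiv.coe_fn_mk, ← hGn (χ F) n a hn ha,
    show G (χ F) = F.1 from congrArg Subtype.val (hleft F)]

theorem chars_equiv_algHom (ι : ℚ_[p] →+* ℂ) :
    letI := ι.toAlgebra
    ∃ Θ : Chars ι k ≃ (↥(lvlAlg p k) →ₐ[ℚ_[p]] ℂ), ∀ χ z, Θ χ z = χ.1 z := by
  let := ι.toAlgebra
  exact ⟨⟨fun χ => ⟨χ.1, χ.2⟩, fun f => ⟨f.toRingHom, f.commutes⟩, fun _ => rfl, fun _ => rfl⟩,
    fun _ _ => rfl⟩

/-- **The eigenforms are as many as the dimension, and a basis.** -/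
theorem eigenforms_basis (p : ℕ) [Fact p.Prime] (hk : 3 ≤ k) :
    Finite {F : ModularForm 𝒮ℒ (k : ℤ) // IsEigenForm F} ∧
      Nat.card {F : ModularForm 𝒮ℒ (k : ℤ) // IsEigenForm F} =
        Module.finrank ℂ (ModularForm 𝒮ℒ (k : ℤ)) ∧
      LinearIndependent ℂ (fun F : {F : ModularForm 𝒮ℒ (k : ℤ) // IsEigenForm F} =>
        (F.1 : ModularForm 𝒮ℒ (k : ℤ))) ∧
      Submodule.span ℂ {F : ModularForm 𝒮ℒ (k : ℤ) | IsEigenForm F} = ⊤ := by
  classical
  obtain ⟨ι⟩ := nonempty_embedding p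
  let := ι.toAlgebra
  have := finite_lvlAlg (p := p) (k := k)
  have := isReduced_lvlAlg (p := p) hk
  obtain ⟨hbij, hdim⟩ := lvlPair_bijective (p := p) hk
  obtain ⟨hfinA, hcardA⟩ := natCard_algHom (F := ℚ_[p]) (A := ↥(lvlAlg p k)) (L := ℂ)
  obtain ⟨Ψ, hΨ⟩ := exists_char_equiv (p := p) ι hk
  obtain ⟨Θ, hΘ⟩ := chars_equiv_algHom (k := k) ι
  have hfin : Finite {F : ModularForm 𝒮ℒ (k : ℤ) // IsEigenForm F} :=
    Finite.of_equiv _ (Ψ.trans Θ).symm
  let : Fintype {F : ModularForm 𝒮ℒ (k : ℤ) // IsEigenForm F} := Fintype.ofFinite _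
  have hcard : Fintype.card {F : ModularForm 𝒮ℒ (k : ℤ) // IsEigenForm F} =
      Module.finrank ℚ_[p] ↥(qpSpace p k) := by
    rw [← Nat.card_eq_fintype_card, Nat.card_congr (Ψ.trans Θ), hcardA, hdim]
  obtain ⟨e, -⟩ : ∃ e : Module.Basis (Fin (Module.finrank ℚ_[p] ↥(qpSpace p k))) ℚ_[p]
      ↥(qpSpace p k), True := ⟨Module.finBasis _ _, trivial⟩
  choose G hG using fun j => exists_form ι (e j).2
  have htop : (⊤ : Submodule ℂ (ModularForm 𝒮ℒ (k : ℤ))) ≤ Submodule.span ℂ (Set.range G) := by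
    intro F _
    obtain ⟨r, x, w, hF⟩ := exists_expansion ι F
    rw [show F = ∑ j, (∑ i, x i * ι (e.repr (w i) j)) • G j from eq_of_higher (by omega)
      fun n _ => by
        rw [coeff_sum, hF, map_sum]
        simp only [hG, coeff_C_mul, coeff_map, Finset.sum_mul]
        rw [Finset.sum_comm]
        refine Finset.sum_congr rfl fun i _ => ?_
        conv_lhs => rw [← e.sum_repr (w i), Submodule.coe_sum, map_sum, map_sum, Finset.mul_sum]
        refine Finset.sum_congr rfl fun j _ => ?_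
        rw [Submodule.coe_smul, PowerSeries.coeff_smul, smul_eq_mul, map_mul, mul_assoc]]
    exact Submodule.sum_mem _ fun j _ => Submodule.smul_mem _ _ (Submodule.subset_span ⟨j, rfl⟩)
  have : Module.Finite ℂ (ModularForm 𝒮ℒ (k : ℤ)) :=
    Module.finite_def.2 (Submodule.fg_def.2 ⟨_, Set.finite_range G, top_le_iff.1 htop⟩)
  have hli : LinearIndependent ℂ (fun F : {F : ModularForm 𝒮ℒ (k : ℤ) // IsEigenForm F} =>
      (F.1 : ModularForm 𝒮ℒ (k : ℤ))) := by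
    obtain ⟨T, hT, hspan⟩ := exists_spanning (p := p) hk
    have h0 := (linearIndependent_monoidHom ↥(lvlAlg p k) ℂ).comp
      (fun F : {F : ModularForm 𝒮ℒ (k : ℤ) // IsEigenForm F} => (Ψ F).1.toMonoidHom)
      fun F F' h => Ψ.injective (Subtype.ext (RingHom.ext fun z => DFunLike.congr_fun h z))
    rw [Fintype.linearIndependent_iff] at h0 ⊢
    intro x hx
    refine h0 x (funext fun z => ?_)
    obtain ⟨φ, hφ⟩ : ∃ φ : ↥(lvlAlg p k) →ₗ[ℚ_[p]] ℂ,
        φ = ∑ F, x F • (Θ (Ψ F)).toLinearMap := ⟨_, rfl⟩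
    have happ : ∀ y, φ y = ∑ F, x F * (Ψ F).1 y := fun y => by
      rw [hφ, LinearMap.sum_apply]
      refine Finset.sum_congr rfl fun F _ => ?_
      rw [LinearMap.smul_apply, smul_eq_mul, AlgHom.toLinearMap_apply, hΘ]
    have hz : φ = 0 := LinearMap.ext_on_range hspan fun n => by
      have hc := congrArg (fun H : ModularForm 𝒮ℒ (k : ℤ) => (qExpansion 1 ⇑H).coeff (n + 1)) hx
      simp only [coeff_sum, FunLike.coe_zero, UpperHalfPlane.qExpansion_zero, map_zero] at hc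
      rw [happ, LinearMap.zero_apply, ← hc]
      exact Finset.sum_congr rfl fun F _ => by rw [hΨ F (n + 1) (T n) (by omega) (hT n)]
    have h := happ z
    rw [hz, LinearMap.zero_apply] at h
    rw [Finset.sum_apply, Pi.zero_apply, h]
    exact Finset.sum_congr rfl fun F _ => rfl
  have hle : Module.finrank ℂ (ModularForm 𝒮ℒ (k : ℤ)) ≤
      Fintype.card {F : ModularForm 𝒮ℒ (k : ℤ) // IsEigenForm F} := by
    rw [hcard, ← finrank_top, ← top_le_iff.1 htop]
    exact (finrank_range_le_card G).trans_eq (Fintype.card_fin _)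
  have hc := le_antisymm hli.fintype_card_le_finrank hle
  refine ⟨hfin, by rw [Nat.card_eq_fintype_card, hc], hli, ?_⟩
  have hs := hli.span_eq_top_of_card_eq_finrank' hc
  rw [Subtype.range_coe_subtype] at hs
  exact hs

end FA.OrdinaryCount

end
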