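import Fermat.Agent.OrdinaryReduced.Fibre
import Mathlib.Analysis.Complex.Cardinality
import Mathlib.FieldTheory.IsAlgClosed.Classification
import Mathlib.Topology.Algebra.Module.Cardinality

/-!
# Complex forms over an embedding of `ℚ_p`

A form of positive weight is determined by its coefficients of positive index, the series of
`qpSpace` give complex forms under every embedding `ℚ_p → ℂ`, and such embeddings exist.
-/

set_option autoImplicit false
set_option linter.unusedSectionVars false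

noncomputable section

open UpperHalfPlane hiding I
open PowerSeries Cardinal
open scoped MatrixGroups ModularForm

namespace FA.OrdinaryCount

open FA.Eis FA.Tau FA.PadicForms FA.SiegelKlingen FA.LevelOneControl

variable {p : ℕ} [Fact p.Prime] {k : ℕ}

/-- A form of positive weight without coefficients of positive index is zero. -/
theorem eq_zero_of_higher (hk : 1 ≤ k) {F : ModularForm 𝒮ℒ (k : ℤ)}
    (h : ∀ n, 1 ≤ n → (qExpansion 1 ⇑F).coeff n = 0) : F = 0 := by
  obtain ⟨a, ha⟩ : ∃ a, a = (qExpansion 1 ⇑F).coeff 0 := ⟨_, rfl⟩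
  have hconst : ∀ z : ℍ, F z = a := fun z => by
    have h1 := hasQ_form F z
    have h2 : HasSum (fun n => (qExpansion 1 ⇑F).coeff n * Function.Periodic.qParam 1 z ^ n)
        a := by
      rw [ha]
      convert hasSum_single (f := fun n =>
        (qExpansion 1 ⇑F).coeff n * Function.Periodic.qParam 1 z ^ n) 0 (fun n hn => by
          rw [h n (Nat.pos_of_ne_zero hn), zero_mul]) using 1
      rw [pow_zero, mul_one]
    exact h1.unique h2
  have h2 := (FA.ModField.slash_eq_iff_smul ModularGroup.S).1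
    (F.slash_action_eq' _ ⟨ModularGroup.S, rfl⟩)
    ⟨2 * Complex.I, by simp⟩
  rw [show F.toFun = ⇑F from rfl, hconst, hconst, zpow_natCast, ModularGroup.denom_S] at h2
  have ha0 : a = 0 := by
    by_contra hne
    have h3 := congrArg norm (mul_right_cancel₀ hne (h2.symm.trans (one_mul a).symm))
    rw [norm_pow, norm_one] at h3
    have h4 : ‖((⟨2 * Complex.I, by simp⟩ : ℍ) : ℂ)‖ = 2 := by simp
    rw [h4] at h3
    exact (one_lt_pow₀ (one_lt_two : (1 : ℝ) < 2) (n := k) (by omega)).ne' h3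
  exact DFunLike.ext _ _ fun z => by rw [hconst, ha0]; rfl

/-- Forms with the same coefficients of positive index are equal. -/
theorem eq_of_higher (hk : 1 ≤ k) {F G : ModularForm 𝒮ℒ (k : ℤ)}
    (h : ∀ n, 1 ≤ n → (qExpansion 1 ⇑F).coeff n = (qExpansion 1 ⇑G).coeff n) : F = G := by
  refine sub_eq_zero.1 (eq_zero_of_higher hk fun n hn => ?_)
  rw [FunLike.coe_sub, ((hasQ_form F).sub (hasQ_form G)).qExpansion_eq one_pos, map_sub, h n hn,
    sub_self]

/-- A combination of forms. -/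
theorem coeff_sum {ι : Type*} [Fintype ι] (x : ι → ℂ) (G : ι → ModularForm 𝒮ℒ (k : ℤ)) (n : ℕ) :
    (qExpansion 1 ⇑(∑ i, x i • G i)).coeff n = ∑ i, x i * (qExpansion 1 ⇑(G i)).coeff n := by
  have h : HasQ 1 (⇑(∑ i, x i • G i)) (∑ i, x i • qExpansion 1 ⇑(G i)) := by
    rw [FunLike.coe_sum]
    simp only [FunLike.coe_smul]
    exact HasQ.sum _ fun i _ => (hasQ_form (G i)).smul _
  rw [h.qExpansion_eq one_pos, map_sum]
  exact Finset.sum_congr rfl fun i _ => by rw [PowerSeries.coeff_smul, smul_eq_mul]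

/-- Under an embedding the series of the space are the series of complex forms. -/
theorem exists_form (ι : ℚ_[p] →+* ℂ) {y : PowerSeries ℚ_[p]} (hy : y ∈ qpSpace p k) :
    ∃ G : ModularForm 𝒮ℒ (k : ℤ), qExpansion 1 ⇑G = y.map ι := by
  obtain ⟨r, x, S, hS, rfl⟩ := exists_combination hy
  choose G hG using hS
  refine ⟨∑ i, ι (x i) • G i, PowerSeries.ext fun n => ?_⟩
  rw [coeff_sum, map_sum, map_sum]
  refine Finset.sum_congr rfl fun i _ => ?_
  rw [hG, map_mul, PowerSeries.map_C, coeff_C_mul, coeff_map, coeff_map, coeff_toQp, map_ratCast,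
    eq_ratCast]

/-- Every complex form is a combination of series of the space. -/
theorem exists_expansion (ι : ℚ_[p] →+* ℂ) (F : ModularForm 𝒮ℒ (k : ℤ)) :
    ∃ (r : ℕ) (x : Fin r → ℂ) (w : Fin r → ↥(qpSpace p k)),
      qExpansion 1 ⇑F = ∑ i, C (x i) * (w i : PowerSeries ℚ_[p]).map ι := by
  classical
  obtain ⟨x, hx⟩ := Finsupp.mem_span_range_iff_exists_finsupp.1
    (LevelOneRing.mem_span (k + 1) (k : ℤ) (by omega) F)
  rw [Finsupp.sum] at hx
  have hA : qExpansion 1 ⇑F =
      ∑ i ∈ x.support, x i • (monoInt i.1).map (Int.castRingHom ℂ) := by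
    refine (hasQ_form F).unique one_pos ?_
    rw [← hx]
    exact HasQ.sum _ fun i _ => (hasQ_monomial (k : ℤ) i).smul (x i)
  have hmem : ∀ i : {q : ℕ × ℕ // 4 * (q.1 : ℤ) + 6 * q.2 = (k : ℤ)},
      toQp p ((monoInt i.1).map (Int.castRingHom ℚ)) ∈ qpSpace p k := fun i => by
    refine Submodule.subset_span ⟨_, ?_, rfl⟩
    obtain ⟨⟨u, v⟩, huv⟩ := i
    have h4 : IsRatForm 4 (eFourInt.map (Int.castRingHom ℚ)) :=
      IsRatForm.of_int (F := ModularForm.E₄) qExpansion_eFour
    have h6 : IsRatForm 6 (eSixInt.map (Int.castRingHom ℚ)) :=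
      IsRatForm.of_int (F := ModularForm.E₆) qExpansion_eSix
    have h := (h4.pow u).mul (h6.pow v)
    rw [show u * 4 + v * 6 = k by push_cast at huv; omega, ← map_pow, ← map_pow, ← map_mul] at h
    exact h
  obtain ⟨e⟩ : Nonempty ({i // i ∈ x.support} ≃ Fin x.support.card) := ⟨x.support.equivFin⟩
  refine ⟨x.support.card, fun j => x (e.symm j : {i // i ∈ x.support}).1,
    fun j => ⟨_, hmem (e.symm j).1⟩, ?_⟩
  rw [hA, ← Finset.sum_coe_sort, ← e.symm.sum_comp]
  refine Finset.sum_congr rfl fun j _ => ?_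
  rw [PowerSeries.smul_eq_C_mul]
  congr 1
  exact PowerSeries.ext fun n => by simp

/-- A normalised eigenform of level one. -/
def IsEigenForm {k : ℕ} (F : ModularForm 𝒮ℒ (k : ℤ)) : Prop :=
  (qExpansion 1 ⇑F).coeff 1 = 1 ∧ ∀ l : ℕ, l.Prime → ∀ n, (qExpansion 1 ⇑F).coeff (n * l) +
      (if l ∣ n then (l : ℂ) ^ (k - 1) * (qExpansion 1 ⇑F).coeff (n / l) else 0) =
    (qExpansion 1 ⇑F).coeff l * (qExpansion 1 ⇑F).coeff n

/-- **Embeddings of `ℚ_p` into `ℂ` exist.** -/
theorem nonempty_embedding (p : ℕ) [Fact p.Prime] : Nonempty (ℚ_[p] →+* ℂ) := by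
  obtain ⟨K, _, _, _, hK⟩ : ∃ (K : Type) (_ : Field K) (_ : Algebra ℚ_[p] K) (_ : IsAlgClosed K),
      Algebra.IsAlgebraic ℚ_[p] K :=
    ⟨AlgebraicClosure ℚ_[p], inferInstance, inferInstance, inferInstance, inferInstance⟩
  have hQ : #ℚ_[p] ≤ 𝔠 := by
    refine mk_quotient_le.trans ((mk_subtype_le _).trans ?_)
    rw [← power_def, mk_nat, mk_eq_aleph0 ℚ, aleph0_power_aleph0]
  have hQ' : 𝔠 ≤ #ℚ_[p] := continuum_le_cardinal_of_nontriviallyNormedField ℚ_[p]
  have h1 : #K ≤ 𝔠 := (Algebra.IsAlgebraic.cardinalMk_le_max ℚ_[p] K).trans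
    (max_le hQ aleph0_le_continuum)
  have h2 : 𝔠 ≤ #K := hQ'.trans (mk_le_of_injective (algebraMap ℚ_[p] K).injective)
  have : CharZero K := charZero_of_injective_algebraMap (algebraMap ℚ_[p] K).injective
  have hKC : #K = #ℂ := by rw [mk_complex, le_antisymm h1 h2]
  obtain ⟨e⟩ := IsAlgClosed.ringEquiv_of_equiv_of_charZero
    (aleph0_lt_continuum.trans_le h2) (Cardinal.eq.1 hKC)
  exact ⟨e.toRingHom.comp (algebraMap ℚ_[p] K)⟩

end FA.OrdinaryCount

end
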