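import Fermat.Agent.OrdinaryCount.Lattice
import Mathlib.RingTheory.Nakayama
import Mathlib.RingTheory.IntegralClosure.IntegrallyClosed

/-!
# Integrality over `ι(ℤ_p)` and reduced algebras

`1 - p c` has an integral inverse if `c` is integral, `1 / p` is not integral, and quotients of a
reduced finite algebra are reduced.
-/

set_option autoImplicit false
set_option linter.unusedSectionVars false

noncomputable section

namespace FA.OrdinaryCount

open FA.PadicForms

variable {p : ℕ} [Fact p.Prime] (ι : ℚ_[p] →+* ℂ)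

theorem isIntegralElem_pow {x : ℂ} (hx : (iotaInt ι).IsIntegralElem x) (n : ℕ) :
    (iotaInt ι).IsIntegralElem (x ^ n) := by
  induction n with
  | zero =>
    rw [pow_zero]
    exact RingHom.isIntegralElem_one _
  | succ n ih =>
    rw [pow_succ]
    exact RingHom.IsIntegralElem.mul _ ih hx

/-- **`1 - p c` is a unit among the integral numbers.** -/
theorem isIntegralElem_inv_sub {c : ℂ} (hc : (iotaInt ι).IsIntegralElem c) :
    1 - (p : ℂ) * c ≠ 0 ∧ (iotaInt ι).IsIntegralElem (1 - (p : ℂ) * c)⁻¹ := by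
  let := (iotaInt ι).toAlgebra
  have hc' : IsIntegral ℤ_[p] c := hc
  obtain ⟨M, hM⟩ : ∃ M, M = Subalgebra.toSubmodule (Algebra.adjoin ℤ_[p] {c}) := ⟨_, rfl⟩
  obtain ⟨N, hN⟩ : ∃ N : Submodule ℤ_[p] ℂ,
      N = M.map (LinearMap.mulLeft ℤ_[p] (1 - (p : ℂ) * c)) := ⟨_, rfl⟩
  have hle : M ≤ N ⊔ IsLocalRing.maximalIdeal ℤ_[p] • M := fun m hm => by
    have hcm : c * m ∈ M := by
      rw [hM, Subalgebra.mem_toSubmodule] at hm ⊢
      exact mul_mem (Algebra.subset_adjoin (Set.mem_singleton c)) hm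
    refine Submodule.mem_sup.2 ⟨(1 - (p : ℂ) * c) * m, hN ▸ ⟨m, hm, rfl⟩,
      (p : ℤ_[p]) • (c * m), Submodule.smul_mem_smul ?_ hcm, ?_⟩
    · rw [PadicInt.maximalIdeal_eq_span_p]
      exact Ideal.mem_span_singleton_self _
    · rw [Algebra.smul_def, map_natCast]
      ring
  have h1 : (1 : ℂ) ∈ N := Submodule.le_of_le_smul_of_le_jacobson_bot
    (hM ▸ hc'.fg_adjoin_singleton) (IsLocalRing.maximalIdeal_le_jacobson ⊥) hle
    (hM ▸ (Algebra.adjoin ℤ_[p] {c}).one_mem)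
  rw [hN] at h1
  obtain ⟨m, hm, hm1⟩ := h1
  rw [LinearMap.mulLeft_apply] at hm1
  rw [hM] at hm
  refine ⟨left_ne_zero_of_mul (hm1 ▸ one_ne_zero), ?_⟩
  rw [inv_eq_of_mul_eq_one_right hm1]
  exact IsIntegral.of_mem_of_fg _ hc'.fg_adjoin_singleton m hm

/-- `1 / p` is not integral. -/
theorem not_isIntegralElem_inv : ¬(iotaInt ι).IsIntegralElem (ι (p : ℚ_[p])⁻¹) := by
  rintro ⟨P, hP, h⟩
  rw [iotaInt, ← Polynomial.hom_eval₂, map_eq_zero_iff ι ι.injective] at h
  obtain ⟨y, hy⟩ := (IsIntegrallyClosed.isIntegral_iff (R := ℤ_[p]) (K := ℚ_[p])).1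
    (⟨P, hP, h⟩ : IsIntegral ℤ_[p] (p : ℚ_[p])⁻¹)
  have h2 : ‖(p : ℚ_[p])⁻¹‖ ≤ 1 := hy ▸ y.2
  rw [norm_inv, Padic.norm_p, inv_inv] at h2
  exact h2.not_gt one_lt_cast

/-- Every quotient of a reduced finite algebra is reduced. -/
theorem isReduced_quotient {F A : Type*} [Field F] [CommRing A] [Algebra F A] [Module.Finite F A]
    [IsReduced A] (J : Ideal A) : IsReduced (A ⧸ J) := by
  classical
  have : IsArtinianRing A := IsArtinianRing.of_finite F A
  obtain ⟨e, he⟩ : ∃ e : A ≃ₐ[A] ∀ I : MaximalSpectrum A, A ⧸ I.asIdeal, ∀ a I,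
      e a I = Ideal.Quotient.mk I.asIdeal a :=
    ⟨IsArtinianRing.equivPi A, fun a I => congrFun ((IsArtinianRing.equivPi A).commutes a) I⟩
  have hreg : ∀ a : A, ∃ b, a = a * a * b := fun a => by
    let := fun I : MaximalSpectrum A => Ideal.Quotient.field I.asIdeal
    obtain ⟨b, hb⟩ := e.surjective fun I => (Ideal.Quotient.mk I.asIdeal a)⁻¹
    refine ⟨b, e.injective (funext fun I => ?_)⟩
    rw [map_mul, map_mul, Pi.mul_apply, Pi.mul_apply, hb, he]
    rcases eq_or_ne (Ideal.Quotient.mk I.asIdeal a) 0 with h | h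
    · rw [h, zero_mul, zero_mul]
    · rw [mul_assoc, mul_inv_cancel₀ h, mul_one]
  refine ⟨fun x ⟨n, hn⟩ => ?_⟩
  obtain ⟨a, rfl⟩ := Ideal.Quotient.mk_surjective x
  obtain ⟨b, hb⟩ := hreg a
  have hpow : ∀ j, a = a ^ (j + 1) * b ^ j := fun j => by
    induction j with
    | zero => rw [zero_add, pow_one, pow_zero, mul_one]
    | succ j ih =>
      calc a = a * a * b := hb
        _ = a * (a ^ (j + 1) * b ^ j) * b := by rw [← ih]
        _ = a ^ (j + 1 + 1) * b ^ (j + 1) := by rw [pow_succ' a (j + 1), pow_succ]; ring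
  rw [hpow n, map_mul, map_pow, pow_succ, hn, zero_mul, zero_mul]

end FA.OrdinaryCount

end
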