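import Fermat.Agent.OrdinaryCount.Eigen
import Mathlib.RingTheory.IntegralClosure.IsIntegral.Basic
import Mathlib.LinearAlgebra.Matrix.ToLin

/-!
# Integral forms of level one and the kernel of the projector

An endomorphism whose powers are bounded on a basis is integral over `ℤ_p`; modulo `p` the operator
`T_p` is `U`, so its powers tend to zero on the forms that the projector kills.
-/

set_option autoImplicit false
set_option linter.unusedSectionVars false

noncomputable section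

open PowerSeries Filter Topology

namespace FA.OrdinaryCount

open FA.PadicForms FA.OrdinaryProj FA.LambdaHecke FA.LevelOneControl FA.DeltaFamily

variable {p : ℕ} [Fact p.Prime] {k : ℕ}

/-- An endomorphism with bounded powers is integral over `ℤ_p`. -/
theorem exists_monic_of_bounded {V : Type*} [AddCommGroup V] [Module ℚ_[p] V] {d : ℕ}
    (b : Module.Basis (Fin d) ℚ_[p] V) (y : Module.End ℚ_[p] V) (D : ℕ)
    (hy : ∀ m i j, ‖b.repr ((y ^ m) (b i)) j‖ ≤ (p : ℝ) ^ (D : ℤ)) :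
    ∃ P : Polynomial ℤ_[p], P.Monic ∧
      Polynomial.aeval y (P.map PadicInt.Coe.ringHom) = 0 := by
  obtain ⟨Y, hY⟩ : ∃ Y, Y = LinearMap.toMatrixAlgEquiv b y := ⟨_, rfl⟩
  obtain ⟨Φ, hΦ⟩ : ∃ Φ : Matrix (Fin d) (Fin d) ℤ_[p] →ₗ[ℤ_[p]] Matrix (Fin d) (Fin d) ℚ_[p],
      ∀ z i j, Φ z i j = ((p : ℚ_[p]) ^ D)⁻¹ * (z i j : ℚ_[p]) :=
    ⟨{ toFun := fun z => Matrix.of fun i j => ((p : ℚ_[p]) ^ D)⁻¹ * (z i j : ℚ_[p])
       map_add' := fun z z' => Matrix.ext fun i j => by simp [mul_add]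
       map_smul' := fun c z => Matrix.ext fun i j => by
         simp only [Matrix.of_apply, Matrix.smul_apply, smul_eq_mul, RingHom.id_apply,
           PadicInt.coe_mul, Algebra.smul_def]
         rw [show algebraMap ℤ_[p] ℚ_[p] c = (c : ℚ_[p]) from rfl]
         ring }, fun _ _ _ => rfl⟩
  have hp0 : (p : ℚ_[p]) ^ D ≠ 0 := pow_ne_zero _ (Nat.cast_ne_zero.2 (Fact.out : p.Prime).ne_zero)
  have hmem : ∀ m, Y ^ m ∈ LinearMap.range Φ := fun m => by
    have hle : ∀ i j, ‖(p : ℚ_[p]) ^ D * (Y ^ m) i j‖ ≤ 1 := fun i j => by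
      rw [hY, ← map_pow, LinearMap.toMatrixAlgEquiv_apply, norm_mul, Padic.norm_p_pow]
      refine (mul_le_mul_of_nonneg_left (hy m j i) (zpow_pos' _).le).trans (le_of_eq ?_)
      rw [← zpow_add₀ (zero_lt_one.trans (one_lt_cast (p := p))).ne', neg_add_cancel, zpow_zero]
    exact ⟨fun i j => ⟨_, hle i j⟩, Matrix.ext fun i j => by
      rw [hΦ, inv_mul_cancel_left₀ hp0]⟩
  have hfg : (Subalgebra.toSubmodule (Algebra.adjoin ℤ_[p] {Y})).FG := by
    have : IsNoetherian ℤ_[p] ↥(LinearMap.range Φ) := isNoetherian_range Φ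
    have hle : Subalgebra.toSubmodule (Algebra.adjoin ℤ_[p] {Y}) ≤ LinearMap.range Φ := by
      rw [Algebra.adjoin_eq_span, Submodule.span_le]
      intro z hz
      obtain ⟨m, rfl⟩ := Submonoid.mem_closure_singleton.1 hz
      exact hmem m
    exact Module.Finite.iff_fg.1 (Module.Finite.of_injective (Submodule.inclusion hle)
      (Submodule.inclusion_injective hle))
  obtain ⟨P, hP, hP0⟩ := IsIntegral.of_mem_of_fg _ hfg Y
    (Algebra.subset_adjoin (Set.mem_singleton Y))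
  refine ⟨P, hP, (LinearMap.toMatrixAlgEquiv b).injective ?_⟩
  rw [map_zero, ← Polynomial.aeval_algHom_apply, ← hY,
    show (PadicInt.Coe.ringHom : ℤ_[p] →+* ℚ_[p]) = algebraMap ℤ_[p] ℚ_[p] from rfl,
    Polynomial.aeval_map_algebraMap]
  exact hP0

/-- Functionals on the space are bounded on integral series. -/
theorem exists_functional_bound (hk : 3 ≤ k) (φ : Module.Dual ℚ_[p] ↥(qpSpace p k)) :
    ∃ D : ℕ, ∀ x : ↥(qpSpace p k), SupLe (x : PowerSeries ℚ_[p]) 1 →
      ‖φ x‖ ≤ (p : ℝ) ^ (D : ℤ) := by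
  obtain ⟨T, hT, hspan⟩ := exists_spanning (p := p) hk
  obtain ⟨a, rfl⟩ := (lvlPair_bijective (p := p) hk).1.2 φ
  have ha : a ∈ Submodule.span ℚ_[p] (Set.range T) := hspan ▸ Submodule.mem_top
  induction ha using Submodule.span_induction with
  | mem z hz =>
    obtain ⟨n, rfl⟩ := hz
    exact ⟨0, fun x hx => by rw [hT, Nat.cast_zero, zpow_zero]; exact hx _⟩
  | zero => exact ⟨0, fun x _ => by simp⟩
  | add u v _ _ hu hv =>
    obtain ⟨D, hD⟩ := hu
    obtain ⟨E, hE⟩ := hv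
    refine ⟨D + E, fun x hx => ?_⟩
    rw [map_add, LinearMap.add_apply]
    exact (Padic.nonarchimedean _ _).trans (max_le
      ((hD x hx).trans (zpow_le_zpow_right₀ one_lt_cast.le (by omega)))
      ((hE x hx).trans (zpow_le_zpow_right₀ one_lt_cast.le (by omega))))
  | smul c u _ hu =>
    obtain ⟨D, hD⟩ := hu
    obtain ⟨e, he⟩ := exists_pow_ge (p := p) ‖c‖
    refine ⟨e + D, fun x hx => ?_⟩
    rw [map_smul, LinearMap.smul_apply, norm_smul, Nat.cast_add,
      zpow_add₀ (zero_lt_one.trans (one_lt_cast (p := p))).ne']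
    exact mul_le_mul he (hD x hx) (norm_nonneg _) (zpow_pos' _).le

/-- An integral basis on which integral series have bounded coordinates. -/
theorem exists_int_basis (h5 : 5 ≤ p) (hk : 3 ≤ k) :
    ∃ (b : Module.Basis (Fin (Module.finrank ℚ_[p] ↥(qpSpace p k))) ℚ_[p] ↥(qpSpace p k))
      (D : ℕ), (∀ i, SupLe (b i : PowerSeries ℚ_[p]) 1) ∧
        ∀ x : ↥(qpSpace p k), SupLe (x : PowerSeries ℚ_[p]) 1 →
          ∀ i, ‖b.repr x i‖ ≤ (p : ℝ) ^ (D : ℤ) := by
  classical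
  obtain ⟨e, -⟩ : ∃ e : Module.Basis (Fin (Module.finrank ℚ_[p] ↥(qpSpace p k))) ℚ_[p]
      ↥(qpSpace p k), True := ⟨Module.finBasis _ _, trivial⟩
  choose B hB using fun i => (isPadicForm_of_mem h5 (e i).2).exists_supLe
  choose E hE using fun i => exists_pow_ge (p := p) (B i)
  have hu : ∀ i, IsUnit ((p : ℚ_[p]) ^ E i) := fun i =>
    isUnit_iff_ne_zero.2 (pow_ne_zero _ (Nat.cast_ne_zero.2 (Fact.out : p.Prime).ne_zero))
  obtain ⟨b, hb⟩ : ∃ b, b = e.isUnitSMul hu := ⟨_, rfl⟩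
  choose D hD using fun i => exists_functional_bound (p := p) hk (b.coord i)
  refine ⟨b, ∑ i, D i, fun i => ?_, fun x hx i => ?_⟩
  · rw [hb, Module.Basis.isUnitSMul_apply, Submodule.coe_smul, PowerSeries.smul_eq_C_mul]
    refine (((hB i).mono (hE i)).C_mul _).mono (le_of_eq ?_)
    rw [Padic.norm_p_pow, ← zpow_add₀ (zero_lt_one.trans (one_lt_cast (p := p))).ne',
      neg_add_cancel, zpow_zero]
  · exact (hD i x hx).trans (zpow_le_zpow_right₀ one_lt_cast.le
      (Nat.cast_le.2 (Finset.single_le_sum (fun j _ => Nat.zero_le (D j)) (Finset.mem_univ i))))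

/-! ### `T_p` -/

/-- The action of an element of the algebra. -/
abbrev act (a : ↥(lvlAlg p k)) (x : ↥(qpSpace p k)) : ↥(qpSpace p k) :=
  (a : Module.End ℚ_[p] ↥(qpSpace p k)) x

theorem ordProj_vSer_eq_zero (h5 : 5 ≤ p) {κ : Weights p} {f : PowerSeries ℚ_[p]}
    (hf : IsPadicForm f κ) (h : ordProj p f = 0) : ordProj p (vSer p f) = 0 :=
  eq_zero_of_uSer h5 (ordProj_mem h5 (hf.vSer h5))
    (by rw [← ordProj_uSer h5 (hf.vSer h5), uSer_vSer, h])

/-- **The kernel of the projector is stable.** -/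
theorem ordProj_act (h5 : 5 ≤ p) (a : ↥(lvlAlg p k)) {x : ↥(qpSpace p k)}
    (hx : ordProj p (x : PowerSeries ℚ_[p]) = 0) :
    ordProj p (act a x : PowerSeries ℚ_[p]) = 0 := by
  obtain ⟨a, ha⟩ := a
  induction ha using Algebra.adjoin_induction generalizing x with
  | mem a ha =>
    obtain ⟨l, hl, hla⟩ := ha
    have hf := isPadicForm_of_mem h5 x.2
    rw [show (act ⟨a, _⟩ x : PowerSeries ℚ_[p]) = _ from hla x]
    rcases eq_or_ne l p with rfl | hlp
    · rw [tSer_self, ordProj_add h5 (hf.uSer h5) ((hf.vSer h5).C_mul _), ordProj_uSer h5 hf, hx,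
        ordProj_C_mul h5 (hf.vSer h5), ordProj_vSer_eq_zero h5 hf hx]
      exact PowerSeries.ext fun n => by simp [coeff_uSer]
    · have h := ordProj_tSer (θ := (l : ℤ_[p]) ^ (k - 1)) h5 hl hlp hf
      rw [PadicInt.coe_pow, PadicInt.coe_natCast] at h
      rw [h, hx, map_zero]
  | algebraMap c =>
    show ordProj p ((algebraMap ℚ_[p] (Module.End ℚ_[p] ↥(qpSpace p k)) c x : ↥(qpSpace p k)) :
      PowerSeries ℚ_[p]) = 0
    rw [Module.algebraMap_end_apply, Submodule.coe_smul, PowerSeries.smul_eq_C_mul,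
      ordProj_C_mul h5 (isPadicForm_of_mem h5 x.2), hx, mul_zero]
  | add a b _ _ ha hb =>
    show ordProj p ((a x : PowerSeries ℚ_[p]) + (b x : PowerSeries ℚ_[p])) = 0
    rw [ordProj_add h5 (isPadicForm_of_mem h5 (a x).2) (isPadicForm_of_mem h5 (b x).2),
      show ordProj p (a x : PowerSeries ℚ_[p]) = 0 from ha hx,
      show ordProj p (b x : PowerSeries ℚ_[p]) = 0 from hb hx, add_zero]
  | mul a b _ _ ha hb => exact ha (hb hx)

/-- `T` is `T_p` of weight `k`. -/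
def IsTp (T : ↥(lvlAlg p k)) : Prop :=
  ∀ x : ↥(qpSpace p k),
    (act T x : PowerSeries ℚ_[p]) = tSer ((p : ℚ_[p]) ^ (k - 1)) p (x : PowerSeries ℚ_[p])

theorem exists_tp (hk : 3 ≤ k) : ∃ T : ↥(lvlAlg p k), IsTp T :=
  exists_tLvl hk Fact.out

variable {T : ↥(lvlAlg p k)}

theorem IsTp.supLe (hT : IsTp T) {x : ↥(qpSpace p k)} {C : ℝ}
    (hx : SupLe (x : PowerSeries ℚ_[p]) C) (n : ℕ) :
    SupLe (act (T ^ n) x : PowerSeries ℚ_[p]) C := by
  induction n with
  | zero => exact hx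
  | succ n ih =>
    rw [pow_succ', show act (T * T ^ n) x = act T (act (T ^ n) x) from rfl, hT,
      ← PadicInt.coe_natCast, ← PadicInt.coe_pow]
    exact supLe_tSer ih

/-- Modulo `p` the powers of `T_p` are those of `U`. -/
theorem IsTp.congr (hT : IsTp T) (hk : 2 ≤ k) {x : ↥(qpSpace p k)}
    (hx : SupLe (x : PowerSeries ℚ_[p]) 1) (n : ℕ) :
    SupLe ((act (T ^ n) x : PowerSeries ℚ_[p]) - uPow p n (x : PowerSeries ℚ_[p]))
      ((p : ℝ) ^ (-(1 : ℤ))) := by
  induction n with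
  | zero =>
    rw [uPow_zero, pow_zero, show act (1 : ↥(lvlAlg p k)) x = x from rfl, sub_self]
    exact fun j => by simp
  | succ n ih =>
    rw [pow_succ', show act (T * T ^ n) x = act T (act (T ^ n) x) from rfl, hT, tSer_self,
      show uPow p (n + 1) (x : PowerSeries ℚ_[p]) = uSer p (uPow p n (x : PowerSeries ℚ_[p])) by
        rw [← uPow_one, uPow_add', add_comm], add_sub_right_comm, ← uSer_sub]
    refine ih.uSer.add (((hT.supLe hx n).vSer.C_mul _).mono ?_)
    rw [mul_one, Padic.norm_p_pow]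
    exact zpow_le_zpow_right₀ one_lt_cast.le (by omega)

/-- **The powers of `T_p` tend to zero on the kernel of the projector.** -/
theorem IsTp.eventually_small (hT : IsTp T) (h5 : 5 ≤ p) (hk : 2 ≤ k) (t : ℕ) :
    ∀ x : ↥(qpSpace p k), SupLe (x : PowerSeries ℚ_[p]) 1 →
      ordProj p (x : PowerSeries ℚ_[p]) = 0 →
      ∃ n₀, ∀ n, n₀ ≤ n → SupLe (act (T ^ n) x : PowerSeries ℚ_[p]) ((p : ℝ) ^ (-(t : ℤ))) := by
  induction t with
  | zero =>
    intro x hx _
    exact ⟨0, fun n _ => (hT.supLe hx n).mono (by simp)⟩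
  | succ t ih =>
    intro x hx h0
    obtain ⟨i, hi⟩ := ((ordProj_spec h5 (isPadicForm_of_mem h5 x.2)).1 _
      (zpow_pos' (p := p) (-(1 : ℤ)))).exists
    rw [h0, sub_zero] at hi
    obtain ⟨N, hN⟩ : ∃ N, N = i.factorial := ⟨_, rfl⟩
    have hy : SupLe (act (T ^ N) x : PowerSeries ℚ_[p]) ((p : ℝ) ^ (-(1 : ℤ))) := by
      rw [← sub_add_cancel (act (T ^ N) x : PowerSeries ℚ_[p])
        (uPow p N (x : PowerSeries ℚ_[p]))]
      exact (hT.congr hk hx N).add (hN ▸ hi)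
    obtain ⟨x', hx'⟩ : ∃ x', x' = (p : ℚ_[p])⁻¹ • act (T ^ N) x := ⟨_, rfl⟩
    have hp0 : (p : ℚ_[p]) ≠ 0 := Nat.cast_ne_zero.2 (Fact.out : p.Prime).ne_zero
    obtain ⟨n₀, hn₀⟩ := ih x' (by
      rw [hx', Submodule.coe_smul, PowerSeries.smul_eq_C_mul]
      refine (hy.C_mul _).mono (le_of_eq ?_)
      rw [norm_inv, Padic.norm_p, inv_inv, zpow_neg_one,
        mul_inv_cancel₀ (zero_lt_one.trans (one_lt_cast (p := p))).ne']) (by
      rw [hx', Submodule.coe_smul, PowerSeries.smul_eq_C_mul,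
        ordProj_C_mul h5 (isPadicForm_of_mem h5 (act _ x).2), ordProj_act h5 _ h0, mul_zero])
    refine ⟨n₀ + N, fun n hn => ?_⟩
    obtain ⟨m, rfl⟩ : ∃ m, n = m + N := ⟨n - N, by omega⟩
    rw [pow_add, show act (T ^ m * T ^ N) x = act (T ^ m) (act (T ^ N) x) from rfl,
      show act (T ^ N) x = (p : ℚ_[p]) • x' by rw [hx', smul_inv_smul₀ hp0],
      show act (T ^ m) ((p : ℚ_[p]) • x') = (p : ℚ_[p]) • act (T ^ m) x' from map_smul _ _ _,
      Submodule.coe_smul, PowerSeries.smul_eq_C_mul]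
    refine ((hn₀ m (by omega)).C_mul _).mono (le_of_eq ?_)
    rw [Padic.norm_p, ← zpow_neg_one, ← zpow_add₀ (zero_lt_one.trans (one_lt_cast (p := p))).ne']
    push_cast
    ring_nf

/-! ### Values of characters -/

/-- `ℤ_p` in `ℂ`. -/
def iotaInt (ι : ℚ_[p] →+* ℂ) : ℤ_[p] →+* ℂ := ι.comp PadicInt.Coe.ringHom

theorem isIntegralElem_char {ι : ℚ_[p] →+* ℂ} (χ : Chars ι k) (z : ↥(lvlAlg p k))
    {P : Polynomial ℤ_[p]} (hP : P.Monic)
    (h : χ.1 (Polynomial.aeval z (P.map PadicInt.Coe.ringHom)) = 0) :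
    (iotaInt ι).IsIntegralElem (χ.1 z) := by
  refine ⟨P, hP, ?_⟩
  rw [Polynomial.aeval_def, Polynomial.eval₂_map, Polynomial.hom_eval₂, ← RingHom.comp_assoc,
    show χ.1.comp (algebraMap ℚ_[p] ↥(lvlAlg p k)) = ι from RingHom.ext χ.2] at h
  exact h

/-- An operator that preserves integral series has integral values. -/
theorem isIntegralElem_of_integral (h5 : 5 ≤ p) (hk : 3 ≤ k) {ι : ℚ_[p] →+* ℂ} (χ : Chars ι k)
    (z : ↥(lvlAlg p k)) (hz : ∀ x : ↥(qpSpace p k), SupLe (x : PowerSeries ℚ_[p]) 1 →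
      SupLe (act z x : PowerSeries ℚ_[p]) 1) :
    (iotaInt ι).IsIntegralElem (χ.1 z) := by
  obtain ⟨b, D, hb, hD⟩ := exists_int_basis (p := p) (k := k) h5 hk
  have hpow : ∀ (m : ℕ) i, SupLe
      ((((z : Module.End ℚ_[p] ↥(qpSpace p k)) ^ m) (b i) : ↥(qpSpace p k)) :
        PowerSeries ℚ_[p]) 1 := fun m i => by
    induction m with
    | zero => exact hb i
    | succ m ih =>
      rw [pow_succ', Module.End.mul_apply]
      exact hz _ ih
  obtain ⟨P, hP, hP0⟩ := exists_monic_of_bounded b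
    (z : Module.End ℚ_[p] ↥(qpSpace p k)) D fun m i j => hD _ (hpow m i) j
  refine isIntegralElem_char χ z hP ?_
  rw [show Polynomial.aeval z (P.map PadicInt.Coe.ringHom) = 0 from
    Subtype.ext ((Polynomial.aeval_algHom_apply (lvlAlg p k).val z _).symm.trans hP0), map_zero]

end FA.OrdinaryCount

end
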