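import Fermat.Agent.OrdinaryCount.Integral

/-!
# Unit coefficient at `p` and the ordinary part

A character of the algebra factors through the ordinary part exactly when its value at `T_p` is a
unit, so the ordinary eigenforms are as many as the rank of the ordinary part.
-/

set_option autoImplicit false
set_option linter.unusedSectionVars false

noncomputable section

open UpperHalfPlane hiding I
open PowerSeries Filter Topology
open scoped MatrixGroups ModularForm

namespace FA.OrdinaryCount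

open FA.PadicForms FA.OrdinaryProj FA.LambdaHecke FA.LevelOneControl FA.OrdinaryReduced

variable {p : ℕ} [Fact p.Prime] {k : ℕ}

/-- A nonzero number whose value and inverse are integral over `ι(ℤ_p)`. -/
def IsIntUnit (ι : ℚ_[p] →+* ℂ) (z : ℂ) : Prop :=
  z ≠ 0 ∧ (iotaInt ι).IsIntegralElem z ∧ (iotaInt ι).IsIntegralElem z⁻¹

/-- The coefficient at `p` is a unit. -/
def IsUnitAt (ι : ℚ_[p] →+* ℂ) (F : ModularForm 𝒮ℒ (k : ℤ)) : Prop :=
  IsIntUnit ι ((qExpansion 1 ⇑F).coeff p)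

theorem supLe_ordProj (h5 : 5 ≤ p) {κ : Weights p} {f : PowerSeries ℚ_[p]} {C : ℝ}
    (hf : IsPadicForm f κ) (h : SupLe f C) : SupLe (ordProj p f) C := fun n =>
  le_of_tendsto (tendsto_coeff (ordProj_spec h5 hf).1 n).norm
    (Eventually.of_forall fun i => by
      rw [coeff_uPow]
      exact h _)

/-- The ideal of the operators whose image the projector kills. -/
theorem exists_ordIdeal (h5 : 5 ≤ p) (hk : 3 ≤ k) :
    ∃ J : Ideal ↥(lvlAlg p k),
      (∀ a, a ∈ J ↔ ∀ x, ordProj p (act a x : PowerSeries ℚ_[p]) = 0) ∧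
      Module.finrank ℚ_[p] (↥(lvlAlg p k) ⧸ J) =
        Module.finrank ℚ_[p] ↥(ordPart (natWeight p k)) ∧
      IsReduced (↥(lvlAlg p k) ⧸ J) := by
  have := finite_lvlAlg (p := p) (k := k)
  have := isReduced_lvlAlg (p := p) hk
  obtain ⟨g, hg, hge⟩ := exists_eW (p := p) (k := k) h5 hk
  obtain ⟨w, hw⟩ := exists_cyclic (p := p) hk
  obtain ⟨J, hJ⟩ : ∃ J : Ideal ↥(lvlAlg p k), ∀ a, a ∈ J ↔ ∀ x, g (act a x) = 0 :=
    ⟨{ carrier := {a | ∀ x, g (act a x) = 0}
       add_mem' := fun {a b} ha hb x => by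
        rw [show act (a + b) x = act a x + act b x from rfl, map_add, ha x, hb x, add_zero]
       zero_mem' := fun x => map_zero g
       smul_mem' := fun c a ha x => by
        rw [smul_eq_mul, mul_comm, show act (a * c) x = act a (act c x) from rfl]
        exact ha _ }, fun _ => Iff.rfl⟩
  refine ⟨J, fun a => ?_, ?_, isReduced_quotient (F := ℚ_[p]) J⟩
  · rw [hJ]
    exact forall_congr' fun x => by rw [← hge, ZeroMemClass.coe_eq_zero]
  obtain ⟨ρ, hρ⟩ : ∃ ρ : ↥(lvlAlg p k) →ₗ[ℚ_[p]] ↥(ordPart (natWeight p k)),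
      ∀ a, ρ a = g (act a w) :=
    ⟨g.comp ((LinearMap.applyₗ w).comp (lvlAlg p k).val.toLinearMap), fun _ => rfl⟩
  have hsurj : Function.Surjective ρ := fun y => by
    obtain ⟨x, rfl⟩ := hg y
    obtain ⟨a, ha⟩ := hw.2 x
    exact ⟨a, by rw [hρ]; exact congrArg g ha⟩
  have hker : LinearMap.ker ρ = LinearMap.ker (Ideal.Quotient.mkₐ ℚ_[p] J).toLinearMap := by
    refine Submodule.ext fun a => ?_
    rw [LinearMap.mem_ker, LinearMap.mem_ker, hρ, AlgHom.toLinearMap_apply,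
      Ideal.Quotient.mkₐ_eq_mk, Ideal.Quotient.eq_zero_iff_mem, hJ]
    refine ⟨fun h x => ?_, fun h => h w⟩
    obtain ⟨b, rfl⟩ := hw.2 x
    rw [show act a ((b : Module.End ℚ_[p] ↥(qpSpace p k)) w) = act (a * b) w from rfl, mul_comm,
      show act (b * a) w = act b (act a w) from rfl]
    refine Subtype.ext ?_
    rw [hge]
    exact ordProj_act h5 b (by rw [← hge, h]; rfl)
  have h1 := ρ.finrank_range_add_finrank_ker
  have h2 := (Ideal.Quotient.mkₐ ℚ_[p] J).toLinearMap.finrank_range_add_finrank_ker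
  rw [LinearMap.range_eq_top.2 hsurj, finrank_top, hker] at h1
  rw [LinearMap.range_eq_top.2 (Ideal.Quotient.mkₐ_surjective ℚ_[p] J), finrank_top] at h2
  omega

/-- Integral forms of level one whose projections generate the integral ordinary ones. -/
theorem exists_lift_gens (h5 : 5 ≤ p) :
    ∃ (x : Fin (Module.finrank (ZMod p) ↥(ordModP p k)) → ↥(qpSpace p k))
      (G : Fin (Module.finrank (ZMod p) ↥(ordModP p k)) → PowerSeries ℤ_[p]) (N : ℕ),
      (∀ j, SupLe (x j : PowerSeries ℚ_[p]) 1) ∧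
      (∀ j, ordProj p (x j : PowerSeries ℚ_[p]) = toQps p (G j)) ∧
      (∀ j, IsIntForm (natWeight p k) (G j) ∧ ordProj p (toQps p (G j)) = toQps p (G j)) ∧
      LinearIndependent ℚ_[p] (fun j => toQps p (G j)) ∧
      ordModP p k ≤ Submodule.span (ZMod p) (Set.range fun j => redSer p (G j)) ∧
      0 < N ∧ ∀ j, uPow p N (redSer p (G j)) = redSer p (G j) := by
  have := finite_ordModP (p := p) h5 k
  have : Module.Finite (ZMod p) ↥(ordModP p k) := .of_finite
  obtain ⟨b, -⟩ : ∃ b : Module.Basis (Fin (Module.finrank (ZMod p) ↥(ordModP p k))) (ZMod p)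
      ↥(ordModP p k), True := ⟨Module.finBasis (ZMod p) _, trivial⟩
  have hb : ∀ j, ∃ (x : ↥(qpSpace p k)) (L : PowerSeries ℤ_[p]) (d : ℕ),
      SupLe (x : PowerSeries ℚ_[p]) 1 ∧ ordProj p (x : PowerSeries ℚ_[p]) = toQps p L ∧
      IsIntForm (natWeight p k) L ∧ ordProj p (toQps p L) = toQps p L ∧
      redSer p L = (b j : PowerSeries (ZMod p)) ∧ 0 < d ∧
      uPow p d (redSer p L) = redSer p L := fun j => by
    obtain ⟨hv', d, hd, hv⟩ := (mem_ordModP h5).1 (b j).2
    obtain ⟨S, g, hS, hg, hgv⟩ := exists_lift_classical hv'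
    have hg' : IsIntForm (natWeight p k) g := by
      rw [IsIntForm, hg]
      exact hS.isPadicForm
    obtain ⟨L, hL, hLe, hL', hLr⟩ := redSer_ordProj h5 hg' hd (by rw [hgv]; exact hv)
    exact ⟨⟨toQp p S, Submodule.subset_span ⟨S, hS, rfl⟩⟩, L, d,
      show SupLe (toQp p S) 1 by rw [← hg]; exact supLe_toQps g,
      by rw [← hLe, hg], hL, hL', hLr.trans hgv, hd, by rw [hLr, hgv]; exact hv⟩
  choose x L d hx hxe hL hL' hLr hd hfix using hb
  have e : (fun j => redSer p (L j)) = (ordModP p k).subtype ∘ b := funext hLr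
  refine ⟨x, L, ∏ j, d j, hx, hxe, fun j => ⟨hL j, hL' j⟩, linearIndependent_toQps ?_, ?_,
    Finset.prod_pos fun j _ => hd j, fun j => ?_⟩
  · rw [e]
    exact b.linearIndependent.map' _ (Submodule.ker_subtype _)
  · rw [e, Set.range_comp, Submodule.span_image, b.span_eq, Submodule.map_subtype_top]
  · obtain ⟨m, hm⟩ := Finset.dvd_prod_of_mem d (Finset.mem_univ j)
    rw [hm]
    exact uPow_fixed (hfix j) m

/-- An operator with integral projections on the generators is integral modulo the ideal. -/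
theorem exists_monic_mem (h5 : 5 ≤ p) (hk : 3 ≤ k) {r : ℕ} {x : Fin r → ↥(qpSpace p k)}
    {G : Fin r → PowerSeries ℤ_[p]}
    (hxe : ∀ j, ordProj p (x j : PowerSeries ℚ_[p]) = toQps p (G j))
    (hG : ∀ j, IsIntForm (natWeight p k) (G j) ∧ ordProj p (toQps p (G j)) = toQps p (G j))
    (hli : LinearIndependent ℚ_[p] fun j => toQps p (G j))
    (hspan : ordModP p k ≤ Submodule.span (ZMod p) (Set.range fun j => redSer p (G j)))
    (z : ↥(lvlAlg p k))
    (hz : ∀ j, SupLe (ordProj p (act z (x j) : PowerSeries ℚ_[p])) 1) :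
    ∃ P : Polynomial ℤ_[p], P.Monic ∧ ∀ y,
      ordProj p (act (Polynomial.aeval z (P.map PadicInt.Coe.ringHom)) y :
        PowerSeries ℚ_[p]) = 0 := by
  classical
  obtain ⟨g, hg, hge⟩ := exists_eW (p := p) (k := k) h5 hk
  have hgx : ∀ j, (g (x j) : PowerSeries ℚ_[p]) = toQps p (G j) := fun j => by rw [hge, hxe]
  have hmk : LinearIndependent ℚ_[p] fun j => g (x j) := by
    refine LinearIndependent.of_comp (ordPart (natWeight p k)).subtype ?_
    rw [show (ordPart (natWeight p k)).subtype ∘ (fun j => g (x j)) = fun j => toQps p (G j) from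
      funext hgx]
    exact hli
  have htop : ⊤ ≤ Submodule.span ℚ_[p] (Set.range fun j => g (x j)) := fun y _ => by
    obtain ⟨c, hc⟩ := (Submodule.mem_span_range_iff_exists_fun _).1
      (le_of_eq (ordPart_eq_span (κ := natWeight p k) h5 hk rfl hG hspan) y.2)
    refine (Submodule.mem_span_range_iff_exists_fun _).2 ⟨c, Subtype.ext ?_⟩
    rw [Submodule.coe_sum, ← hc]
    exact Finset.sum_congr rfl fun j _ => by rw [Submodule.coe_smul, hgx]
  obtain ⟨b, hb⟩ : ∃ b : Module.Basis (Fin r) ℚ_[p] ↥(ordPart (natWeight p k)),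
      ∀ j, b j = g (x j) := ⟨Module.Basis.mk hmk htop, fun j => Module.Basis.mk_apply hmk htop j⟩
  obtain ⟨Z, hZ⟩ : ∃ Z : Module.End ℚ_[p] ↥(ordPart (natWeight p k)),
      Z = b.constr ℚ_[p] fun j => g (act z (x j)) := ⟨_, rfl⟩
  have hind : ∀ y, Z (g y) = g (act z y) := fun y => by
    obtain ⟨u, hu⟩ : ∃ u, u = ∑ j, b.repr (g y) j • x j := ⟨_, rfl⟩
    have hgu : g u = g y := by
      rw [hu, map_sum]
      simp only [map_smul, ← hb]
      exact b.sum_repr (g y)
    have h0 : ordProj p (act z (y - u) : PowerSeries ℚ_[p]) = 0 := ordProj_act h5 z (by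
      rw [← hge, map_sub, hgu, sub_self]; rfl)
    rw [← hge, ZeroMemClass.coe_eq_zero, show act z (y - u) = act z y - act z u from map_sub _ _ _,
      map_sub, sub_eq_zero] at h0
    rw [h0, ← hgu, hu, map_sum, map_sum,
      show act z (∑ j, b.repr (g y) j • x j) = ∑ j, b.repr (g y) j • act z (x j) by
        simp [act, map_sum], map_sum]
    refine Finset.sum_congr rfl fun j _ => ?_
    rw [map_smul, map_smul, map_smul, ← hb, hZ, Module.Basis.constr_basis]
  have hent : ∀ i j, ‖b.repr (Z (b i)) j‖ ≤ 1 := fun i j => by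
    rw [hb, hind]
    obtain ⟨L, hL⟩ : ∃ L : PowerSeries ℤ_[p],
        toQps p L = (g (act z (x i)) : PowerSeries ℚ_[p]) :=
      ⟨PowerSeries.mk fun n => ⟨_, hge _ ▸ hz i n⟩,
        PowerSeries.ext fun n => by rw [coeff_toQps, coeff_mk]⟩
    have hmem := (mem_ordPart h5).1 (g (act z (x i))).2
    rw [← hL] at hmem
    obtain ⟨c, hc⟩ := exists_combine (κ := natWeight p k) h5 hk rfl hG hspan hmem.1 hmem.2
    have e : g (act z (x i)) = ∑ l, (c l : ℚ_[p]) • b l := Subtype.ext (by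
      rw [← hL, hc, combine, map_sum, Submodule.coe_sum]
      refine Finset.sum_congr rfl fun l _ => ?_
      rw [Submodule.coe_smul, hb, hgx, map_mul, toQps, map_C, PowerSeries.smul_eq_C_mul]
      rfl)
    rw [e, b.repr_sum_self]
    exact (c j).2
  have hpow : ∀ (m : ℕ) i j, ‖b.repr ((Z ^ m) (b i)) j‖ ≤ (p : ℝ) ^ ((0 : ℕ) : ℤ) := fun m => by
    rw [Nat.cast_zero, zpow_zero]
    induction m with
    | zero =>
      intro i j
      rw [pow_zero, Module.End.one_apply, b.repr_self, Finsupp.single_apply]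
      split_ifs <;> simp
    | succ m ih =>
      intro i j
      have e : b.repr (Z ((Z ^ m) (b i))) j =
          ∑ l, b.repr ((Z ^ m) (b i)) l * b.repr (Z (b l)) j := by
        conv_lhs => rw [← b.sum_repr ((Z ^ m) (b i)), map_sum, map_sum, Finsupp.finsetSum_apply]
        exact Finset.sum_congr rfl fun l _ => by simp
      rw [pow_succ', Module.End.mul_apply, e]
      refine IsUltrametricDist.norm_sum_le_of_forall_le_of_nonneg zero_le_one fun l _ => ?_
      rw [norm_mul]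
      exact mul_le_one₀ (ih i l) (norm_nonneg _) (hent l j)
  obtain ⟨P, hP, hP0⟩ := exists_monic_of_bounded b Z 0 hpow
  refine ⟨P, hP, fun y => ?_⟩
  have hpoly : ∀ (Q : Polynomial ℚ_[p]) y,
      Polynomial.aeval Z Q (g y) = g (act (Polynomial.aeval z Q) y) := fun Q => by
    induction Q using Polynomial.induction_on with
    | C c =>
      intro y
      rw [Polynomial.aeval_C, Polynomial.aeval_C, Module.algebraMap_end_apply,
        show act (algebraMap ℚ_[p] ↥(lvlAlg p k) c) y = c • y from rfl, map_smul]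
    | add P Q hP hQ =>
      intro y
      rw [map_add, map_add, LinearMap.add_apply, hP, hQ,
        show ∀ a a' : ↥(lvlAlg p k), act (a + a') y = act a y + act a' y from fun _ _ => rfl,
        map_add]
    | monomial n c ih =>
      intro y
      rw [pow_succ, ← mul_assoc, map_mul, map_mul (Polynomial.aeval z), Polynomial.aeval_X,
        Polynomial.aeval_X, Module.End.mul_apply, hind, ih]
      rfl
  rw [← hge, ← hpoly, hP0]
  rfl

variable {ι : ℚ_[p] →+* ℂ} {χ : Chars ι k} {T : ↥(lvlAlg p k)}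

/-- A character through the ordinary part has a unit value at `T_p`. -/
theorem isIntUnit_of_kills (h5 : 5 ≤ p) (hk : 3 ≤ k) (hT : IsTp T)
    (hkill : ∀ a, (∀ y, ordProj p (act a y : PowerSeries ℚ_[p]) = 0) → χ.1 a = 0) :
    IsIntUnit ι (χ.1 T) := by
  obtain ⟨x, G, N, hx, hxe, hG, hli, hspan, hN, hfix⟩ := exists_lift_gens (p := p) (k := k) h5
  obtain ⟨z, hz⟩ : ∃ z : ↥(lvlAlg p k), z = (p : ℚ_[p])⁻¹ • (1 - T ^ N) := ⟨_, rfl⟩
  have hp0 : (p : ℚ_[p]) ≠ 0 := Nat.cast_ne_zero.2 (Fact.out : p.Prime).ne_zero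
  have hzx : ∀ j, SupLe (ordProj p (act z (x j) : PowerSeries ℚ_[p])) 1 := fun j => by
    have hf := isPadicForm_of_mem h5 (x j).2
    have hfT := isPadicForm_of_mem h5 (act (T ^ N) (x j)).2
    rw [show act z (x j) = (p : ℚ_[p])⁻¹ • (x j - act (T ^ N) (x j)) by rw [hz]; rfl,
      Submodule.coe_smul, PowerSeries.smul_eq_C_mul,
      ordProj_C_mul h5 (isPadicForm_of_mem h5 (x j - act (T ^ N) (x j)).2)]
    have key : SupLe (ordProj p ((x j - act (T ^ N) (x j) : ↥(qpSpace p k)) : PowerSeries ℚ_[p]))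
        ((p : ℝ) ^ (-(1 : ℤ))) := by
      obtain ⟨f, hf'⟩ : ∃ f, f = (act (T ^ N) (x j) : PowerSeries ℚ_[p]) -
          uPow p N (x j : PowerSeries ℚ_[p]) := ⟨_, rfl⟩
      have hUM : ∀ M, IsPadicForm (uPow p M (x j : PowerSeries ℚ_[p])) (natWeight p k) ∧
          ordProj p (uPow p M (x j : PowerSeries ℚ_[p])) =
            uPow p M (ordProj p (x j : PowerSeries ℚ_[p])) := fun M => by
        induction M with
        | zero => rw [uPow_zero, uPow_zero]; exact ⟨hf, rfl⟩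
        | succ M ih =>
          rw [show M + 1 = 1 + M from add_comm _ _, ← uPow_add', uPow_one, ← uPow_add', uPow_one,
            ordProj_uSer h5 ih.1, ih.2]
          exact ⟨ih.1.uSer h5, rfl⟩
      obtain ⟨hfU, e1⟩ := hUM N
      have hfi : IsPadicForm f (natWeight p k) := hf' ▸ hfT.sub h5 hfU
      have e2 : ordProj p (act (T ^ N) (x j) : PowerSeries ℚ_[p]) =
          ordProj p f + uPow p N (toQps p (G j)) := by
        rw [← hxe, ← e1, ← ordProj_add h5 hfi hfU, hf', sub_add_cancel]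
      obtain ⟨g, -, hge⟩ := exists_eW (p := p) (k := k) h5 hk
      rw [← hge, map_sub, Submodule.coe_sub, hge, hge, e2, hxe, ← toQps_uPow,
        show toQps p (G j) - (ordProj p f + toQps p (uPow p N (G j))) =
          toQps p (G j - uPow p N (G j)) - ordProj p f by rw [map_sub]; ring]
      refine SupLe.sub (supLe_iff (a := 1).2 ?_)
        (supLe_ordProj h5 hfi (hf' ▸ hT.congr (by omega) (hx j) N))
      rw [pow_one, ← redSer_eq_iff, redSer_uPow, hfix]
    refine (key.C_mul _).mono (le_of_eq ?_)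
    rw [norm_inv, Padic.norm_p, inv_inv, zpow_neg_one,
      mul_inv_cancel₀ (zero_lt_one.trans (one_lt_cast (p := p))).ne']
  obtain ⟨P, hP, hP0⟩ := exists_monic_mem h5 hk hxe hG hli hspan z hzx
  have hc : (iotaInt ι).IsIntegralElem (χ.1 z) := isIntegralElem_char χ z hP (hkill _ hP0)
  have ha : (iotaInt ι).IsIntegralElem (χ.1 T) :=
    isIntegralElem_of_integral h5 hk χ T fun y hy => by
      simpa only [pow_one] using hT.supLe hy 1
  obtain ⟨hne, hinv⟩ := isIntegralElem_inv_sub ι hc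
  have hpow : χ.1 T ^ N = 1 - (p : ℂ) * χ.1 z := by
    rw [hz, Algebra.smul_def, map_mul, χ.2, map_sub, map_one, map_pow, map_inv₀, map_natCast]
    have : (p : ℂ) ≠ 0 := Nat.cast_ne_zero.2 (Fact.out : p.Prime).ne_zero
    field_simp
    ring
  rw [← hpow] at hne hinv
  have hT0 : χ.1 T ≠ 0 := fun h => hne (by rw [h, zero_pow hN.ne'])
  refine ⟨hT0, ha, ?_⟩
  rw [show (χ.1 T)⁻¹ = χ.1 T ^ (N - 1) * (χ.1 T ^ N)⁻¹ by
    rw [show N = N - 1 + 1 from (Nat.sub_add_cancel hN).symm, Nat.add_sub_cancel, pow_succ,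
      mul_inv, ← mul_assoc, mul_inv_cancel₀ (pow_ne_zero _ hT0), one_mul]]
  exact RingHom.IsIntegralElem.mul _ (isIntegralElem_pow ι ha _) hinv

/-- A character with a unit value at `T_p` factors through the ordinary part. -/
theorem kills_of_isIntUnit (h5 : 5 ≤ p) (hk : 3 ≤ k) (hT : IsTp T)
    (hu : IsIntUnit ι (χ.1 T)) {a : ↥(lvlAlg p k)}
    (ha : ∀ y, ordProj p (act a y : PowerSeries ℚ_[p]) = 0) : χ.1 a = 0 := by
  classical
  by_contra hne
  obtain ⟨ε, hε, hε1⟩ : ∃ ε : ↥(lvlAlg p k),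
      (∀ y, ordProj p (act ε y : PowerSeries ℚ_[p]) = 0) ∧ χ.1 ε = 1 := by
    let := ι.toAlgebra
    have := finite_lvlAlg (p := p) (k := k)
    obtain ⟨φ, hφ⟩ : ∃ φ : ↥(lvlAlg p k) →ₐ[ℚ_[p]] ℂ, ∀ z, φ z = χ.1 z :=
      ⟨⟨χ.1, χ.2⟩, fun _ => rfl⟩
    have halg : IsAlgebraic ℚ_[p] (φ a) :=
      ((IsIntegral.of_finite ℚ_[p] a).map φ).isAlgebraic
    obtain ⟨a', ha'⟩ := (φ.range).inv_mem_of_algebraic (x := ⟨φ a, a, rfl⟩) halg
    refine ⟨a' * a, fun y => ?_, ?_⟩
    · rw [mul_comm, show act (a * a') y = act a (act a' y) from rfl]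
      exact ha _
    · rw [map_mul, ← hφ, ← hφ, show φ a' = (φ a)⁻¹ from ha']
      exact inv_mul_cancel₀ (by rwa [hφ])
  obtain ⟨b, D, hb, hD⟩ := exists_int_basis (p := p) (k := k) h5 hk
  choose B hB using fun i => (isPadicForm_of_mem h5 (act ε (b i)).2).exists_supLe
  choose E hE using fun i => exists_pow_ge (p := p) (B i)
  obtain ⟨e, he⟩ : ∃ e : ℕ, ∀ i, E i ≤ e := ⟨∑ i, E i, fun i =>
    Finset.single_le_sum (fun j _ => Nat.zero_le (E j)) (Finset.mem_univ i)⟩
  obtain ⟨u, hu'⟩ : ∃ u, u = fun i => (p : ℚ_[p]) ^ e • act ε (b i) := ⟨_, rfl⟩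
  have hu1 : ∀ i, SupLe (u i : PowerSeries ℚ_[p]) 1 := fun i => by
    rw [hu', Submodule.coe_smul, PowerSeries.smul_eq_C_mul]
    refine (((hB i).mono ((hE i).trans (zpow_le_zpow_right₀ one_lt_cast.le
      (Nat.cast_le.2 (he i))))).C_mul _).mono (le_of_eq ?_)
    rw [Padic.norm_p_pow, ← zpow_add₀ (zero_lt_one.trans (one_lt_cast (p := p))).ne',
      neg_add_cancel, zpow_zero]
  have hu0 : ∀ i, ordProj p (u i : PowerSeries ℚ_[p]) = 0 := fun i => by
    rw [hu', Submodule.coe_smul, PowerSeries.smul_eq_C_mul,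
      ordProj_C_mul h5 (isPadicForm_of_mem h5 (act ε (b i)).2), hε, mul_zero]
  choose n hn using fun i => hT.eventually_small h5 (by omega) (e + 1 + D) (u i) (hu1 i) (hu0 i)
  obtain ⟨n₀, hn₀⟩ : ∃ n₀, ∀ i, n i ≤ n₀ := ⟨∑ i, n i, fun i =>
    Finset.single_le_sum (fun j _ => Nat.zero_le (n j)) (Finset.mem_univ i)⟩
  obtain ⟨y, hy⟩ : ∃ y, y = ((p : ℚ_[p]) ^ (e + 1))⁻¹ • (T ^ n₀ * ((p : ℚ_[p]) ^ e • ε)) :=
    ⟨_, rfl⟩
  have hint : ∀ v : ↥(qpSpace p k), SupLe (v : PowerSeries ℚ_[p]) 1 →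
      SupLe (act y v : PowerSeries ℚ_[p]) 1 := fun v hv => by
    have e1 : act y v = ((p : ℚ_[p]) ^ (e + 1))⁻¹ • ∑ i, b.repr v i • act (T ^ n₀) (u i) := by
      rw [hy, show act (((p : ℚ_[p]) ^ (e + 1))⁻¹ • (T ^ n₀ * ((p : ℚ_[p]) ^ e • ε))) v =
        ((p : ℚ_[p]) ^ (e + 1))⁻¹ • act (T ^ n₀) ((p : ℚ_[p]) ^ e • act ε v) from rfl]
      congr 1
      conv_lhs => rw [← b.sum_repr v]
      simp only [act, hu', map_sum, map_smul, Finset.smul_sum, smul_smul, mul_comm]
    rw [e1, Submodule.coe_smul, PowerSeries.smul_eq_C_mul, Submodule.coe_sum]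
    intro m
    rw [coeff_C_mul, map_sum, norm_mul, norm_inv, Padic.norm_p_pow, zpow_neg, inv_inv]
    have hR : (0 : ℝ) ≤ (p : ℝ) ^ (-(((e + 1 : ℕ)) : ℤ)) := (zpow_pos' _).le
    refine (mul_le_mul_of_nonneg_left (IsUltrametricDist.norm_sum_le_of_forall_le_of_nonneg hR
      fun i _ => ?_) (zpow_pos' _).le).trans (le_of_eq ?_)
    · rw [Submodule.coe_smul, PowerSeries.coeff_smul, smul_eq_mul, norm_mul]
      refine (mul_le_mul (hD v hv i) (hn i n₀ (hn₀ i) m) (norm_nonneg _)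
        (zpow_pos' _).le).trans (le_of_eq ?_)
      rw [← zpow_add₀ (zero_lt_one.trans (one_lt_cast (p := p))).ne']
      push_cast
      ring_nf
    · rw [← zpow_add₀ (zero_lt_one.trans (one_lt_cast (p := p))).ne', add_neg_cancel, zpow_zero]
  have h1 := RingHom.IsIntegralElem.mul _ (isIntegralElem_of_integral h5 hk χ y hint)
    (isIntegralElem_pow ι hu.2.2 n₀)
  refine not_isIntegralElem_inv ι ?_
  have e2 : ι (p : ℚ_[p])⁻¹ = χ.1 y * (χ.1 T)⁻¹ ^ n₀ := by
    have hp0 : (p : ℂ) ≠ 0 := Nat.cast_ne_zero.2 (Fact.out : p.Prime).ne_zero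
    have hT0 := hu.1
    rw [hy, Algebra.smul_def, map_mul, map_mul, Algebra.smul_def, map_mul, χ.2, χ.2, map_pow, hε1,
      map_inv₀, map_inv₀, map_pow, map_pow, map_natCast, inv_pow]
    field_simp
    ring
  rw [e2]
  exact h1

/-- **The ordinary eigenforms are as many as the rank of the ordinary part.** -/
theorem ordinary_eigen_count (h5 : 5 ≤ p) (hk : 3 ≤ k) (ι : ℚ_[p] →+* ℂ) :
    Finite {F : ModularForm 𝒮ℒ (k : ℤ) // IsEigenForm F ∧ IsUnitAt ι F} ∧
      Nat.card {F : ModularForm 𝒮ℒ (k : ℤ) // IsEigenForm F ∧ IsUnitAt ι F} =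
        Module.finrank (ZMod p) ↥(ordModP p k) := by
  classical
  let := ι.toAlgebra
  have := finite_lvlAlg (p := p) (k := k)
  obtain ⟨J, hJ, hJdim, hJred⟩ := exists_ordIdeal (p := p) (k := k) h5 hk
  obtain ⟨Ψ, hΨ⟩ := exists_char_equiv (p := p) ι hk
  obtain ⟨T, hT⟩ := exists_tp (p := p) hk
  obtain ⟨hfinQ, hcardQ⟩ := natCard_algHom (F := ℚ_[p]) (A := ↥(lvlAlg p k) ⧸ J) (L := ℂ)
  have hpa : ∀ F, (Ψ F).1 T = (qExpansion 1 ⇑F.1).coeff p := fun F =>
    hΨ F p T (Fact.out : p.Prime).one_le fun x => by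
      rw [lvlPair_apply, hT, coeff_tSer, one_mul,
        if_neg (fun h => (Fact.out : p.Prime).one_lt.ne' (Nat.dvd_one.1 h)), add_zero]
  have hiff : ∀ F, IsUnitAt ι F.1 ↔ ∀ a ∈ J, (Ψ F).1 a = 0 := fun F => by
    rw [IsUnitAt, ← hpa]
    exact ⟨fun h a ha => kills_of_isIntUnit h5 hk hT h ((hJ a).1 ha),
      fun h => isIntUnit_of_kills h5 hk hT fun a ha => h a ((hJ a).2 ha)⟩
  obtain ⟨Φ⟩ : Nonempty ({χ : Chars ι k // ∀ a ∈ J, χ.1 a = 0} ≃
      (↥(lvlAlg p k) ⧸ J →ₐ[ℚ_[p]] ℂ)) :=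
    ⟨⟨fun χ => Ideal.Quotient.liftₐ J ⟨χ.1.1, χ.1.2⟩ χ.2,
      fun φ => ⟨⟨φ.toRingHom.comp (Ideal.Quotient.mk J), φ.commutes⟩, fun a ha => by
        show φ (Ideal.Quotient.mk J a) = 0
        rw [Ideal.Quotient.eq_zero_iff_mem.2 ha, map_zero]⟩,
      fun χ => Subtype.ext (Subtype.ext (RingHom.ext fun a => rfl)),
      fun φ => AlgHom.ext fun q => by
        obtain ⟨a, rfl⟩ := Ideal.Quotient.mk_surjective q
        rfl⟩⟩
  have eqv := ((Equiv.subtypeSubtypeEquivSubtypeInter _ _).symm.trans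
    (Ψ.subtypeEquiv hiff)).trans Φ
  exact ⟨Finite.of_equiv _ eqv.symm, by
    rw [Nat.card_congr eqv, hcardQ, hJdim, (finrank_ordPart h5 hk rfl).2]⟩

end FA.OrdinaryCount

end
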